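import Fermat.Agent.Burgess.Moment
import Mathlib.Analysis.MeanInequalitiesPow
import Mathlib.NumberTheory.Harmonic.Bounds
import Mathlib.Data.Nat.Totient

/-!
# Burgess's averaging

`A B |S| ≤ ∑_x ν x |∑_b χ (x + b)| + 2 (A B) ^ 2` and, by Hölder, a bound for the first term with
`∑ ν x = A N` and `∑ ν x ^ 2 ≤ 4 A N L ^ 2`.
-/

set_option autoImplicit false

noncomputable section

namespace FA.Burgess

open Finset

variable {p : ℕ} [Fact p.Prime]

/-- `∑_{M < n ≤ M + N} (n / p)`. -/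
def windowSum (p : ℕ) [Fact p.Prime] (M N : ℕ) : ℝ := ∑ n ∈ Ioc M (M + N), chi p (n : ZMod p)

theorem abs_windowSum_le (M N : ℕ) : |windowSum p M N| ≤ N := by
  refine (abs_sum_le_sum_abs _ _).trans ((sum_le_sum fun n _ => abs_chi_le _).trans ?_)
  simp

theorem windowSum_add (M N K : ℕ) :
    windowSum p M (N + K) = windowSum p M N + windowSum p (M + N) K := by
  simp only [windowSum]
  rw [← add_assoc, ← sum_Ioc_consecutive _ (Nat.le_add_right M N) (Nat.le_add_right (M + N) K)]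

theorem windowSum_shift (M N h : ℕ) :
    ∑ n ∈ Ioc M (M + N), chi p ((n + h : ℕ) : ZMod p) = windowSum p (M + h) N := by
  rw [windowSum, show Ioc (M + h) (M + h + N) = (Ioc M (M + N)).map (addRightEmbedding h) by
    rw [map_add_right_Ioc, add_right_comm], sum_map]
  rfl

theorem abs_windowSum_shift_sub_le (M N h : ℕ) :
    |windowSum p M N - windowSum p (M + h) N| ≤ 2 * h := by
  have h1 := windowSum_add (p := p) M h N
  have h2 := windowSum_add (p := p) M N h
  rw [add_comm h N] at h1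
  have h3 := abs_windowSum_le (p := p) M h
  have h4 := abs_windowSum_le (p := p) (M + N) h
  rw [abs_le] at h3 h4 ⊢
  constructor <;> linarith

/-- The pairs `(a, n)`. -/
def pairBox (A M N : ℕ) : Finset (ℕ × ℕ) := Icc 1 A ×ˢ Ioc M (M + N)

/-- `n / a` in `ZMod p`. -/
def quot (p : ℕ) [Fact p.Prime] (x : ℕ × ℕ) : ZMod p := (x.1 : ZMod p)⁻¹ * (x.2 : ZMod p)

/-- The number of the pairs over `y`. -/
def mult (p : ℕ) [Fact p.Prime] (A M N : ℕ) (y : ZMod p) : ℝ :=
  ((pairBox A M N).filter fun x => quot p x = y).card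

theorem natCast_ne_zero_of_lt {a : ℕ} (h1 : 1 ≤ a) (h2 : a < p) : (a : ZMod p) ≠ 0 := fun h => by
  rw [ZMod.natCast_eq_zero_iff] at h
  have := Nat.le_of_dvd h1 h
  omega

theorem window_le_mult {A B M N : ℕ} (hA : A < p) :
    (A : ℝ) * B * |windowSum p M N| ≤
      ∑ y : ZMod p, mult p A M N y * |shortSum p B y| + 2 * ((A : ℝ) * B) ^ 2 := by
  have hT : ∑ y : ZMod p, mult p A M N y * |shortSum p B y| =
      ∑ x ∈ pairBox A M N, |shortSum p B (quot p x)| := by
    rw [← sum_fiberwise (pairBox A M N) (quot p) fun x => |shortSum p B (quot p x)|]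
    refine sum_congr rfl fun y _ => ?_
    rw [mult, ← nsmul_eq_mul, ← sum_const]
    exact sum_congr rfl fun x hx => by rw [(mem_filter.1 hx).2]
  have e : (A : ℝ) * B * windowSum p M N =
      ∑ a ∈ Icc 1 A, ∑ b ∈ Icc 1 B, windowSum p (M + a * b) N +
        ∑ a ∈ Icc 1 A, ∑ b ∈ Icc 1 B, (windowSum p M N - windowSum p (M + a * b) N) := by
    rw [← sum_add_distrib]
    simp only [← sum_add_distrib, add_sub_cancel, sum_const, Nat.card_Icc, Nat.add_sub_cancel,
      nsmul_eq_mul, mul_assoc]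
  have h1 : |∑ a ∈ Icc 1 A, ∑ b ∈ Icc 1 B, windowSum p (M + a * b) N| ≤
      ∑ x ∈ pairBox A M N, |shortSum p B (quot p x)| := by
    rw [pairBox, sum_product]
    refine (abs_sum_le_sum_abs _ _).trans (sum_le_sum fun a ha => ?_)
    rw [mem_Icc] at ha
    have ha0 := natCast_ne_zero_of_lt (p := p) ha.1 (ha.2.trans_lt hA)
    have e2 : ∑ b ∈ Icc 1 B, windowSum p (M + a * b) N =
        chi p (a : ZMod p) * ∑ n ∈ Ioc M (M + N), shortSum p B (quot p (a, n)) := by
      simp only [← windowSum_shift, shortSum, mul_sum]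
      rw [sum_comm]
      refine sum_congr rfl fun n _ => sum_congr rfl fun b _ => ?_
      rw [chi, chi, chi, ← Int.cast_mul, ← map_mul, quot, mul_add, mul_inv_cancel_left₀ ha0]
      push_cast
      rfl
    rw [e2, abs_mul]
    exact (mul_le_of_le_one_left (abs_nonneg _) (abs_chi_le _)).trans (abs_sum_le_sum_abs _ _)
  have h2 : |∑ a ∈ Icc 1 A, ∑ b ∈ Icc 1 B, (windowSum p M N - windowSum p (M + a * b) N)| ≤
      2 * ((A : ℝ) * B) ^ 2 := by
    refine (abs_sum_le_sum_abs _ _).trans ((sum_le_card_nsmul _ _ (2 * ((A : ℝ) * B) * B)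
      fun a ha => ?_).trans ?_)
    · refine (abs_sum_le_sum_abs _ _).trans ((sum_le_card_nsmul _ _ (2 * ((A : ℝ) * B))
        fun b hb => ?_).trans ?_)
      · rw [mem_Icc] at ha hb
        refine (abs_windowSum_shift_sub_le _ _ _).trans (mul_le_mul_of_nonneg_left ?_ two_pos.le)
        exact_mod_cast Nat.mul_le_mul ha.2 hb.2
      · rw [Nat.card_Icc, Nat.add_sub_cancel, nsmul_eq_mul]
        exact le_of_eq (mul_comm _ _)
    · rw [Nat.card_Icc, Nat.add_sub_cancel, nsmul_eq_mul]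
      exact le_of_eq (by ring)
  rw [hT, ← abs_of_nonneg (show (0 : ℝ) ≤ (A : ℝ) * B by positivity), ← abs_mul, e]
  rw [abs_of_nonneg (show (0 : ℝ) ≤ (A : ℝ) * B by positivity)]
  exact (abs_add_le _ _).trans (add_le_add h1 h2)

theorem sum_mult (A M N : ℕ) : ∑ y : ZMod p, mult p A M N y = (A : ℝ) * N := by
  simp only [mult]
  rw [← Nat.cast_sum, ← card_eq_sum_card_fiberwise (f := quot p) fun x _ => mem_univ _, pairBox,
    card_product, Nat.card_Icc, Nat.card_Ioc, Nat.add_sub_cancel, Nat.add_sub_cancel_left,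
    Nat.cast_mul]

theorem card_solutions_le {A M N a a' : ℕ} (ha : a ∈ Icc 1 A) (ha' : a' ∈ Icc 1 A)
    (hAN : 2 * A * N < p) :
    ((Ioc M (M + N) ×ˢ Ioc M (M + N)).filter
      fun x => quot p (a, x.1) = quot p (a', x.2)).card ≤ N * Nat.gcd a a' / a + 1 := by
  rw [mem_Icc] at ha ha'
  rcases Nat.eq_zero_or_pos N with rfl | hN
  · simp
  have hAp : A < p := by
    have := Nat.le_mul_of_pos_right A (show 0 < 2 * N by omega)
    rw [← mul_assoc, mul_comm A 2] at this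
    omega
  have ha0 := natCast_ne_zero_of_lt (p := p) ha.1 (ha.2.trans_lt hAp)
  have ha0' := natCast_ne_zero_of_lt (p := p) ha'.1 (ha'.2.trans_lt hAp)
  obtain ⟨g, hg⟩ : ∃ g, g = Nat.gcd a a' := ⟨_, rfl⟩
  have hg0 : 0 < g := hg ▸ Nat.gcd_pos_of_pos_left _ ha.1
  obtain ⟨b, hb⟩ : g ∣ a := hg ▸ Nat.gcd_dvd_left a a'
  obtain ⟨b', hb'⟩ : g ∣ a' := hg ▸ Nat.gcd_dvd_right a a'
  have hb0 : 0 < b := Nat.pos_of_mul_pos_left (hb ▸ ha.1)
  have hcop : Nat.Coprime b b' := Nat.eq_of_mul_eq_mul_left hg0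
    (by rw [← Nat.gcd_mul_left, ← hb, ← hb', ← hg, mul_one])
  rw [← hg, show N * g / a = N / b by rw [hb, mul_comm N g, Nat.mul_div_mul_left _ _ hg0]]
  rw [← card_range (N / b + 1)]
  refine card_le_card_of_injOn (fun x => (x.1 - M - 1) / b) (fun x hx => ?_) fun x hx y hy h => ?_
  · simp only [mem_coe, mem_filter, mem_product, mem_Ioc] at hx
    rw [mem_coe, mem_range]
    exact Nat.lt_succ_of_le (Nat.div_le_div_right (by omega))
  · simp only [mem_coe, mem_filter, mem_product, mem_Ioc] at hx hy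
    simp only at h
    have key : ∀ u v : ℕ, quot p (a, u) = quot p (a', v) →
        ((a' : ℤ) * u - a * v : ZMod p) = 0 := fun u v huv => by
      simp only [quot] at huv
      rw [inv_mul_eq_iff_eq_mul₀ ha0, ← mul_assoc, mul_comm ((a : ZMod p)), mul_assoc,
        eq_inv_mul_iff_mul_eq₀ ha0'] at huv
      push_cast
      rw [huv, sub_self]
    have hzero : (((a' : ℤ) * ((x.1 : ℤ) - y.1) - (a : ℤ) * ((x.2 : ℤ) - y.2) : ℤ) : ZMod p) =
        0 := by
      have h1 := key _ _ hx.2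
      have h2 := key _ _ hy.2
      push_cast at h1 h2 ⊢
      linear_combination h1 - h2
    rw [ZMod.intCast_zmod_eq_zero_iff_dvd] at hzero
    have hb1 : |(a' : ℤ) * ((x.1 : ℤ) - y.1)| ≤ (A : ℤ) * N := by
      rw [abs_mul]
      exact mul_le_mul (by rw [Nat.abs_cast]; exact_mod_cast ha'.2) (by rw [abs_le]; omega)
        (abs_nonneg _) (Int.natCast_nonneg A)
    have hb2 : |(a : ℤ) * ((x.2 : ℤ) - y.2)| ≤ (A : ℤ) * N := by
      rw [abs_mul]
      exact mul_le_mul (by rw [Nat.abs_cast]; exact_mod_cast ha.2) (by rw [abs_le]; omega)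
        (abs_nonneg _) (Int.natCast_nonneg A)
    have hlt : |(a' : ℤ) * ((x.1 : ℤ) - y.1) - (a : ℤ) * ((x.2 : ℤ) - y.2)| < (p : ℤ) := by
      refine lt_of_le_of_lt ((abs_sub _ _).trans (add_le_add hb1 hb2)) ?_
      have : ((2 * A * N : ℕ) : ℤ) < (p : ℤ) := by exact_mod_cast hAN
      push_cast at this
      linarith
    have heq := Int.eq_zero_of_abs_lt_dvd hzero hlt
    have hdvd : (b : ℤ) ∣ (x.1 : ℤ) - y.1 := by
      refine IsCoprime.dvd_of_dvd_mul_left (Nat.isCoprime_iff_coprime.2 hcop)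
        ⟨(x.2 : ℤ) - y.2, mul_left_cancel₀ (Int.natCast_ne_zero.2 hg0.ne') ?_⟩
      rw [hb, hb', Nat.cast_mul, Nat.cast_mul] at heq
      linarith
    have h1 : x.1 = y.1 := by
      have hmod : (x.1 - M - 1) ≡ (y.1 - M - 1) [MOD b] := by
        rw [Nat.modEq_iff_dvd]
        obtain ⟨c, hc⟩ := hdvd
        exact ⟨-c, by push_cast [show M + 1 ≤ x.1 by omega, show M + 1 ≤ y.1 by omega,
          Nat.sub_sub]; linarith⟩
      have h3 := Nat.div_add_mod (x.1 - M - 1) b
      rw [h, hmod, Nat.div_add_mod] at h3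
      omega
    refine Prod.ext h1 ?_
    rw [h1, sub_self, mul_zero, zero_sub, neg_eq_zero, mul_eq_zero, sub_eq_zero] at heq
    exact Nat.cast_injective (heq.resolve_left (Int.natCast_ne_zero.2 (by omega)))

theorem sum_gcd_div_le (A : ℕ) :
    ∑ a ∈ Icc 1 A, ∑ a' ∈ Icc 1 A, (Nat.gcd a a' : ℝ) / a ≤
      A * (1 + Real.log A) ^ 2 := by
  have h : ∀ a ∈ Icc 1 A, ∑ a' ∈ Icc 1 A, (Nat.gcd a a' : ℝ) / a ≤
      (A : ℝ) * ∑ d ∈ Icc 1 A, if d ∣ a then (1 : ℝ) / a else 0 := by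
    intro a ha
    rw [mul_sum]
    refine (sum_le_sum (g := fun a' => ∑ d ∈ Icc 1 A,
      if d ∣ a ∧ d ∣ a' then (d : ℝ) / a else 0) fun a' _ => ?_).trans ?_
    · rw [mem_Icc] at ha
      refine le_trans (le_of_eq ?_) (single_le_sum (a := Nat.gcd a a') (fun d _ => ?_)
        (mem_Icc.2 ⟨Nat.gcd_pos_of_pos_left _ ha.1, (Nat.gcd_le_left _ ha.1).trans ha.2⟩))
      · rw [if_pos ⟨Nat.gcd_dvd_left _ _, Nat.gcd_dvd_right _ _⟩]
      · split_ifs <;> positivity
    rw [sum_comm]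
    refine sum_le_sum fun d hd => ?_
    by_cases hda : d ∣ a
    · simp only [hda, true_and, if_true]
      rw [← sum_filter, sum_const, nsmul_eq_mul, show Icc 1 A = Ioc 0 A by ext; simp; omega,
        Nat.Ioc_filter_dvd_card_eq_div]
      have hd0 : (0 : ℝ) < d := Nat.cast_pos.2 (mem_Icc.1 hd).1
      refine (mul_le_mul_of_nonneg_right Nat.cast_div_le (by positivity)).trans (le_of_eq ?_)
      field_simp
    · simp [hda]
  refine (sum_le_sum h).trans ?_
  rw [← mul_sum]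
  refine mul_le_mul_of_nonneg_left ?_ (Nat.cast_nonneg A)
  rw [sum_comm, sq]
  have hharm : ∀ n, n ≤ A → ∑ j ∈ Icc 1 n, ((j : ℕ) : ℝ)⁻¹ ≤ 1 + Real.log A := fun n hn => by
    have h := harmonic_le_one_add_log A
    rw [harmonic_eq_sum_Icc] at h
    push_cast at h
    exact le_trans (sum_le_sum_of_subset_of_nonneg (Icc_subset_Icc_right hn)
      fun j _ _ => by positivity) h
  refine le_trans (sum_le_sum (g := fun d => ((d : ℕ) : ℝ)⁻¹ * (1 + Real.log A)) fun d hd => ?_) ?_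
  · rw [← sum_filter]
    rw [mem_Icc] at hd
    refine le_trans (le_of_eq ?_) (mul_le_mul_of_nonneg_left (hharm (A / d) (Nat.div_le_self _ _))
      (by positivity))
    rw [show (Icc 1 A).filter (d ∣ ·) = (Icc 1 (A / d)).image (d * ·) from ?_,
      sum_image fun x _ z _ h => Nat.eq_of_mul_eq_mul_left hd.1 h, mul_sum]
    · refine sum_congr rfl fun j _ => ?_
      push_cast
      rw [one_div, mul_inv]
    · ext a
      simp only [mem_filter, mem_Icc, mem_image]
      constructor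
      · rintro ⟨⟨h1, h2⟩, j, rfl⟩
        exact ⟨j, ⟨Nat.pos_of_mul_pos_left h1, (Nat.le_div_iff_mul_le hd.1).2
          (by rw [mul_comm]; exact h2)⟩, rfl⟩
      · rintro ⟨j, ⟨h1, h2⟩, rfl⟩
        refine ⟨⟨Nat.mul_pos hd.1 h1, ?_⟩, dvd_mul_right d j⟩
        rw [mul_comm]
        exact (Nat.le_div_iff_mul_le hd.1).1 h2
  · rw [← sum_mul]
    exact mul_le_mul_of_nonneg_right (hharm A le_rfl) (by linarith [Real.log_natCast_nonneg A])

theorem sum_mult_sq_le {A M N : ℕ} (hAN : 2 * A * N < p) :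
    ∑ y : ZMod p, mult p A M N y ^ 2 ≤ A * N * (1 + Real.log A) ^ 2 + (A : ℝ) ^ 2 := by
  classical
  have e : ∑ y : ZMod p, mult p A M N y ^ 2 =
      ∑ a ∈ Icc 1 A, ∑ a' ∈ Icc 1 A, (((Ioc M (M + N) ×ˢ Ioc M (M + N)).filter
        fun x => quot p (a, x.1) = quot p (a', x.2)).card : ℝ) := by
    have h1 : ∑ y : ZMod p, mult p A M N y ^ 2 =
        ∑ x ∈ pairBox A M N, mult p A M N (quot p x) := by
      rw [← sum_fiberwise (pairBox A M N) (quot p) fun x => mult p A M N (quot p x)]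
      refine sum_congr rfl fun y _ => ?_
      rw [sum_congr rfl fun x hx => by rw [(mem_filter.1 hx).2], sum_const, nsmul_eq_mul, sq]
      rfl
    rw [h1, pairBox, sum_product]
    refine sum_congr rfl fun a _ => ?_
    simp only [mult, pairBox, card_filter, sum_product]
    push_cast
    rw [sum_comm]
    refine sum_congr rfl fun a' _ => sum_congr rfl fun n _ => sum_congr rfl fun n' _ => ?_
    simp only [eq_comm]
  rw [e]
  refine (sum_le_sum fun a ha => sum_le_sum (g := fun a' => (N : ℝ) * ((Nat.gcd a a' : ℝ) / a) + 1)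
    fun a' ha' => ?_).trans ?_
  · refine (Nat.cast_le.2 (card_solutions_le ha ha' hAN)).trans ?_
    push_cast
    refine add_le_add (Nat.cast_div_le.trans (le_of_eq ?_)) le_rfl
    push_cast
    ring
  · simp only [sum_add_distrib, ← mul_sum, sum_const, Nat.card_Icc, Nat.add_sub_cancel,
      nsmul_eq_mul, mul_one]
    refine add_le_add ((mul_le_mul_of_nonneg_left (sum_gcd_div_le A) (Nat.cast_nonneg N)).trans
      (le_of_eq (by ring))) (le_of_eq (sq _).symm)

theorem holder_pow {ι : Type*} (s : Finset ι) (w F : ι → ℝ) (hw : ∀ i ∈ s, 0 ≤ w i)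
    (hF : ∀ i ∈ s, 0 ≤ F i) {r : ℕ} (hr : 1 ≤ r) :
    (∑ i ∈ s, w i * F i) ^ (2 * r) ≤
      (∑ i ∈ s, w i) ^ (2 * r - 2) * (∑ i ∈ s, w i ^ 2) * ∑ i ∈ s, F i ^ (2 * r) := by
  rcases (sum_nonneg hw).eq_or_lt with h0 | h0
  · have hz := (sum_eq_zero_iff_of_nonneg hw).1 h0.symm
    rw [sum_eq_zero fun i hi => by rw [hz i hi, zero_mul], zero_pow (by omega)]
    exact mul_nonneg (mul_nonneg (pow_nonneg (sum_nonneg hw) _)
      (sum_nonneg fun i _ => sq_nonneg _)) (sum_nonneg fun i hi => pow_nonneg (hF i hi) _)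
  obtain ⟨W, hW⟩ : ∃ W, W = ∑ i ∈ s, w i := ⟨_, rfl⟩
  rw [← hW] at h0 ⊢
  have h1 := Real.pow_arith_mean_le_arith_mean_pow s (fun i => w i / W) F
    (fun i hi => div_nonneg (hw i hi) h0.le) (by rw [← sum_div, ← hW, div_self h0.ne']) hF r
  simp only [div_mul_eq_mul_div] at h1
  rw [← sum_div, ← sum_div, div_pow, div_le_div_iff₀ (pow_pos h0 r) h0] at h1
  have h2 : (∑ i ∈ s, w i * F i) ^ r ≤ W ^ (r - 1) * ∑ i ∈ s, w i * F i ^ r := by
    refine le_of_mul_le_mul_right (h1.trans (le_of_eq ?_)) h0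
    obtain ⟨j, rfl⟩ : ∃ j, r = j + 1 := ⟨r - 1, by omega⟩
    rw [Nat.add_sub_cancel, pow_succ W]
    ring
  have h3 := pow_le_pow_left₀
    (pow_nonneg (sum_nonneg fun i hi => mul_nonneg (hw i hi) (hF i hi)) r) h2 2
  rw [← pow_mul, mul_comm r 2, mul_pow, ← pow_mul, show (r - 1) * 2 = 2 * r - 2 by omega] at h3
  refine h3.trans ?_
  rw [mul_assoc]
  refine mul_le_mul_of_nonneg_left ?_ (pow_nonneg h0.le _)
  refine (sum_mul_sq_le_sq_mul_sq s w fun i => F i ^ r).trans (le_of_eq ?_)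
  simp only [← pow_mul, mul_comm r 2]

end FA.Burgess
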