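import Mathlib.RingTheory.Polynomial.UniqueFactorization
import Mathlib.RingTheory.IntegralClosure.IntegrallyClosed
import Mathlib.FieldTheory.Finite.Basic
import Mathlib.Algebra.Polynomial.FieldDivision
import Mathlib.Algebra.Polynomial.Derivative
import Mathlib.Tactic

/-!
# The auxiliary polynomials of Stepanov

`∑_{j < J} (r j + s j f ^ g) X ^ (p j)` vanishes only for zero `r`, `s` of degree `≤ A`, if
`2 A + deg f < p = 2 g + 1` and `f` is not a constant times a square; and the derivatives of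
`f ^ n X ^ k X ^ (p j)` are `f ^ (n - l) X ^ (p j)` times polynomials of small degree.
-/

set_option autoImplicit false

noncomputable section

namespace FA.Burgess

open Polynomial

variable {p : ℕ} [Fact p.Prime]

/-- `f` is a constant times a square. -/
def ConstMulSq (f : (ZMod p)[X]) : Prop := ∃ (c : ZMod p) (u : (ZMod p)[X]), f = C c * u ^ 2

theorem pow_prime_sub_dvd (f : (ZMod p)[X]) : X ^ p ∣ f ^ p - C (f.eval 0) := by
  have h : X ∣ f - C (f.eval 0) := by
    rw [X_dvd_iff, coeff_sub, coeff_C_zero, coeff_zero_eq_eval_zero, sub_self]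
  have h2 := pow_dvd_pow_of_dvd h p
  rwa [sub_pow_char, ← C_pow, ZMod.pow_card] at h2

theorem head_eq_zero {f r s : (ZMod p)[X]} {A g : ℕ} (hg : p = 2 * g + 1)
    (hA : 2 * A + f.natDegree < p) (hf0 : f.eval 0 ≠ 0) (hns : ¬ ConstMulSq f)
    (hr : r.natDegree ≤ A) (hs : s.natDegree ≤ A) (h : X ^ p ∣ r + s * f ^ g) :
    r = 0 ∧ s = 0 := by
  have h1 : X ^ p ∣ r ^ 2 * f - C (f.eval 0) * s ^ 2 := by
    have e : r ^ 2 * f - C (f.eval 0) * s ^ 2 =
        (r + s * f ^ g) * ((r - s * f ^ g) * f) + s ^ 2 * (f ^ p - C (f.eval 0)) := by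
      rw [congrArg (f ^ ·) hg, pow_succ f (2 * g), pow_mul' f 2 g]
      ring
    rw [e]
    exact dvd_add (h.mul_right _) ((pow_prime_sub_dvd f).mul_left _)
  have h2 : r ^ 2 * f - C (f.eval 0) * s ^ 2 = 0 := by
    refine eq_zero_of_dvd_of_natDegree_lt h1 ?_
    rw [natDegree_X_pow]
    refine (natDegree_sub_le _ _).trans_lt (max_lt ?_ ?_)
    · refine natDegree_mul_le.trans_lt ?_
      have := natDegree_pow_le (p := r) (n := 2)
      omega
    · refine natDegree_mul_le.trans_lt ?_
      rw [natDegree_C]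
      have := natDegree_pow_le (p := s) (n := 2)
      omega
  rw [sub_eq_zero] at h2
  rcases eq_or_ne r 0 with hr0 | hr0
  · refine ⟨hr0, ?_⟩
    rw [hr0, zero_pow two_ne_zero, zero_mul, eq_comm, mul_eq_zero, C_eq_zero] at h2
    exact pow_eq_zero_iff two_ne_zero |>.1 (h2.resolve_left hf0)
  · exfalso
    have hu : IsUnit (C (f.eval 0)) := isUnit_C.2 (Ne.isUnit hf0)
    obtain ⟨t, rfl⟩ : r ∣ s := by
      refine (IsIntegrallyClosed.pow_dvd_pow_iff two_ne_zero).1 ?_
      exact (hu.dvd_mul_left).1 ⟨f, h2.symm⟩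
    refine hns ⟨f.eval 0, t, mul_left_cancel₀ (pow_ne_zero 2 hr0) ?_⟩
    rw [h2]
    ring

/-- **The auxiliary polynomials are independent.** -/
theorem coeffs_eq_zero {f : (ZMod p)[X]} {A g : ℕ} (hg : p = 2 * g + 1)
    (hA : 2 * A + f.natDegree < p) (hf0 : f.eval 0 ≠ 0) (hns : ¬ ConstMulSq f) (J : ℕ)
    (r s : ℕ → (ZMod p)[X]) (hr : ∀ j, (r j).natDegree ≤ A) (hs : ∀ j, (s j).natDegree ≤ A)
    (h : ∑ j ∈ Finset.range J, (r j + s j * f ^ g) * X ^ (p * j) = 0) :
    ∀ j < J, r j = 0 ∧ s j = 0 := by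
  induction J generalizing r s with
  | zero => intro j hj; omega
  | succ J ih =>
    rw [Finset.sum_range_succ'] at h
    have e : ∑ j ∈ Finset.range J, (r (j + 1) + s (j + 1) * f ^ g) * X ^ (p * (j + 1)) =
        X ^ p * ∑ j ∈ Finset.range J, (r (j + 1) + s (j + 1) * f ^ g) * X ^ (p * j) := by
      rw [Finset.mul_sum]
      exact Finset.sum_congr rfl fun j _ => by rw [mul_add p j 1, mul_one, pow_add]; ring
    rw [e, mul_zero, pow_zero, mul_one] at h
    have h0 : r 0 = 0 ∧ s 0 = 0 := by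
      refine head_eq_zero hg hA hf0 hns (hr 0) (hs 0) ?_
      rw [eq_neg_of_add_eq_zero_right h]
      exact (dvd_mul_right _ _).neg_right
    rw [h0.1, h0.2, zero_mul, add_zero, add_zero] at h
    have h' := (mul_eq_zero.1 h).resolve_left (pow_ne_zero _ X_ne_zero)
    intro j hj
    rcases j with _ | j
    · exact h0
    · exact ih (fun i => r (i + 1)) (fun i => s (i + 1)) (fun i => hr _) (fun i => hs _) h' j
        (by omega)

/-- One step: `(f ^ n r)' = f ^ (n - 1) stepPoly`. -/
def stepPoly (f : (ZMod p)[X]) (n : ℕ) (r : (ZMod p)[X]) : (ZMod p)[X] :=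
  C (n : ZMod p) * derivative f * r + f * derivative r

/-- The iterated steps. -/
def iterPoly (f : (ZMod p)[X]) (n : ℕ) : ℕ → (ZMod p)[X] → (ZMod p)[X]
  | 0, r => r
  | l + 1, r => stepPoly f (n - l) (iterPoly f n l r)

theorem derivative_X_pow_prime_mul (j : ℕ) : derivative ((X : (ZMod p)[X]) ^ (p * j)) = 0 := by
  rw [derivative_X_pow, Nat.cast_mul, ZMod.natCast_self, zero_mul, C_0, zero_mul]

theorem derivative_pow_mul {f r : (ZMod p)[X]} {n : ℕ} (hn : 1 ≤ n) (j : ℕ) :
    derivative (f ^ n * r * X ^ (p * j)) = f ^ (n - 1) * stepPoly f n r * X ^ (p * j) := by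
  rw [derivative_mul, derivative_X_pow_prime_mul, mul_zero, add_zero, derivative_mul,
    derivative_pow, stepPoly]
  congr 1
  obtain ⟨m, rfl⟩ : ∃ m, n = m + 1 := ⟨n - 1, by omega⟩
  rw [Nat.add_sub_cancel, pow_succ]
  ring

theorem iterate_derivative_pow_mul (f r : (ZMod p)[X]) (n : ℕ) (j : ℕ) :
    ∀ l ≤ n, derivative^[l] (f ^ n * r * X ^ (p * j)) =
      f ^ (n - l) * iterPoly f n l r * X ^ (p * j) := by
  intro l hl
  induction l with
  | zero => simp [iterPoly]
  | succ l ih =>
    rw [Function.iterate_succ_apply', ih (by omega), derivative_pow_mul (by omega), iterPoly,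
      Nat.sub_sub]

theorem natDegree_iterPoly (f r : (ZMod p)[X]) (n l : ℕ) :
    (iterPoly f n l r).natDegree ≤ r.natDegree + l * f.natDegree := by
  induction l with
  | zero => simp [iterPoly]
  | succ l ih =>
    rw [iterPoly, stepPoly, add_mul, one_mul]
    refine (natDegree_add_le _ _).trans (max_le ?_ ?_)
    · refine natDegree_mul_le.trans ?_
      have := (natDegree_C_mul_le ((n - l : ℕ) : ZMod p) (derivative f)).trans
        (natDegree_derivative_le f)
      omega
    · refine natDegree_mul_le.trans ?_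
      have := natDegree_derivative_le (iterPoly f n l r)
      omega

end FA.Burgess
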