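import Fermat.Agent.Burgess.Main
import Fermat.Agent.PrimesMinusOne.TotientSum

/-!
# The least quadratic non-residue

Vinogradov's trick: if all `n ≤ y` are residues, then so are the `y`-smooth `n ≤ N`, and
`∑_{y < q ≤ N} 1 / q ≤ log (log N / log y) + o (1) < 1 / 2`.
-/

set_option autoImplicit false

noncomputable section

namespace FA.Burgess

open Finset Filter
open scoped Topology ArithmeticFunction.vonMangoldt

theorem sum_inv_prime_step {a b : ℕ} (ha : 2 ≤ a) (hab : a ≤ b) :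
    Real.log a * ∑ q ∈ (Ioc a b).filter Nat.Prime, ((q : ℕ) : ℝ)⁻¹ ≤
      Real.log b - Real.log a + 12 := by
  have h1 := abs_le.1 (PrimesMinusOne.abs_sum_vonMangoldt_div_sub_le (show 1 ≤ b by omega))
  have h2 := abs_le.1 (PrimesMinusOne.abs_sum_vonMangoldt_div_sub_le (show 1 ≤ a by omega))
  rw [← Ioc_union_Ioc_eq_Ioc (Nat.zero_le a) hab,
    sum_union (Ioc_disjoint_Ioc_of_le le_rfl)] at h1
  refine le_trans ?_ (show ∑ d ∈ Ioc a b, Λ d / d ≤ _ by linarith)
  rw [mul_sum]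
  refine (sum_le_sum fun q hq => ?_).trans (sum_le_sum_of_subset_of_nonneg (filter_subset _ _)
    fun q _ _ => div_nonneg ArithmeticFunction.vonMangoldt_nonneg (Nat.cast_nonneg q))
  rw [mem_filter, mem_Ioc] at hq
  rw [ArithmeticFunction.vonMangoldt_apply_prime hq.2, ← div_eq_mul_inv]
  exact div_le_div_of_nonneg_right (Real.log_le_log (Nat.cast_pos.2 (by omega))
    (Nat.cast_le.2 hq.1.1.le)) (Nat.cast_nonneg q)

/-- **Mertens' second theorem**, from above. -/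
theorem exists_sum_inv_prime_le {t η : ℝ} (ht : 0 ≤ t) (hη : 0 < η) :
    ∃ L₀ : ℝ, ∀ (a b : ℕ), L₀ ≤ Real.log a → Real.log b ≤ Real.exp t * Real.log a →
      ∑ q ∈ (Ioc a b).filter Nat.Prime, ((q : ℕ) : ℝ)⁻¹ ≤ t + η := by
  obtain ⟨K, hK⟩ : ∃ K : ℕ, K = ⌈max t (2 * t ^ 2 / η)⌉₊ + 1 := ⟨_, rfl⟩
  have hK' : max t (2 * t ^ 2 / η) ≤ K := by
    rw [hK]
    push_cast
    linarith [Nat.le_ceil (max t (2 * t ^ 2 / η))]
  have hK0 : (0 : ℝ) < K := Nat.cast_pos.2 (by omega)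
  obtain ⟨ρ, hρ⟩ : ∃ ρ, ρ = Real.exp (t / K) := ⟨_, rfl⟩
  have hρ1 : 1 ≤ ρ := hρ ▸ Real.one_le_exp (div_nonneg ht hK0.le)
  have hρK : ρ ^ K = Real.exp t := by
    rw [hρ, ← Real.exp_nat_mul, mul_div_cancel₀ _ hK0.ne']
  have hρle : (K : ℝ) * (ρ - 1) ≤ t + η / 2 := by
    have h1 : |t / K| ≤ 1 := by
      rw [abs_of_nonneg (div_nonneg ht hK0.le), div_le_one hK0]
      exact (le_max_left _ _).trans hK'
    have h2 := (abs_le.1 (Real.abs_exp_sub_one_sub_id_le h1)).2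
    have h3 : (K : ℝ) * (t / K) ^ 2 ≤ η / 2 := by
      have h4 := (le_max_right _ _).trans hK'
      rw [div_le_iff₀ hη] at h4
      rw [div_pow, mul_div_assoc', div_le_iff₀ (pow_pos hK0 2)]
      have := mul_le_mul_of_nonneg_left h4 hK0.le
      linarith
    rw [← hρ] at h2
    have h5 := mul_le_mul_of_nonneg_left h2 hK0.le
    rw [mul_sub, mul_div_cancel₀ _ hK0.ne'] at h5
    linarith
  refine ⟨64 * K / η + 2, fun a b ha hb => ?_⟩
  have hK64 : 0 ≤ 64 * (K : ℝ) / η := by positivity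
  obtain ⟨ℓ, hℓ⟩ : ∃ ℓ, ℓ = Real.log a := ⟨_, rfl⟩
  rw [← hℓ] at ha hb
  have ha2 : 2 ≤ a := by
    by_contra h
    have : Real.log a = 0 := by
      rcases (show a = 0 ∨ a = 1 by omega) with rfl | rfl <;> simp
    linarith
  -- the cut points
  obtain ⟨c, hc⟩ : ∃ c : ℕ → ℕ, c = fun i => ⌊Real.exp (ℓ * ρ ^ i)⌋₊ := ⟨_, rfl⟩
  have hc0 : c 0 = a := by
    rw [hc]
    simp only [pow_zero, mul_one]
    rw [hℓ, Real.exp_log (Nat.cast_pos.2 (by omega)), Nat.floor_natCast]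
  have hcmono : Monotone c := by
    rw [hc]
    exact fun i j hij => Nat.floor_mono (Real.exp_le_exp.2 (mul_le_mul_of_nonneg_left
      (pow_le_pow_right₀ hρ1 hij) (by linarith)))
  have hclog : ∀ i, ℓ * ρ ^ i - 1 ≤ Real.log (c i) ∧ Real.log (c i) ≤ ℓ * ρ ^ i := by
    intro i
    have hbig : 2 ≤ ℓ * ρ ^ i :=
      le_trans (by linarith) (le_mul_of_one_le_right (by linarith) (one_le_pow₀ hρ1))
    have hci : a ≤ c i := hc0 ▸ hcmono (Nat.zero_le i)
    have hci0 : (0 : ℝ) < c i := Nat.cast_pos.2 (by omega)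
    have h1 : (c i : ℝ) ≤ Real.exp (ℓ * ρ ^ i) := by
      rw [hc]
      exact Nat.floor_le (Real.exp_pos _).le
    have h2 : Real.exp (ℓ * ρ ^ i) ≤ 2 * c i := by
      have h := Nat.lt_floor_add_one (Real.exp (ℓ * ρ ^ i))
      have : (1 : ℝ) ≤ c i := Nat.one_le_cast.2 (by omega)
      rw [hc] at this ⊢
      simp only at this ⊢
      linarith
    refine ⟨?_, (Real.log_le_log hci0 h1).trans (le_of_eq (Real.log_exp _))⟩
    have h3 := Real.log_le_log (Real.exp_pos _) h2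
    rw [Real.log_exp, Real.log_mul two_ne_zero hci0.ne'] at h3
    linarith [Real.log_two_lt_d9]
  have hbc : b ≤ c K := by
    rcases Nat.eq_zero_or_pos b with rfl | hb0
    · exact Nat.zero_le _
    rw [hc]
    refine Nat.le_floor ?_
    rw [hρK, ← Real.log_le_iff_le_exp (Nat.cast_pos.2 hb0)]
    linarith
  have hstep : ∀ n, ∑ q ∈ (Ioc a (c n)).filter Nat.Prime, ((q : ℕ) : ℝ)⁻¹ ≤
      n * ((ρ - 1) + 32 / ℓ) := by
    intro n
    induction n with
    | zero => simp [hc0]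
    | succ n ih =>
      rw [← Ioc_union_Ioc_eq_Ioc (hc0 ▸ hcmono (Nat.zero_le n)) (hcmono (Nat.le_succ n)),
        filter_union, sum_union (disjoint_filter_filter (Ioc_disjoint_Ioc_of_le le_rfl)),
        Nat.cast_succ, add_mul, one_mul]
      refine add_le_add ih ?_
      have hcn : a ≤ c n := hc0 ▸ hcmono (Nat.zero_le n)
      have h1 := sum_inv_prime_step (ha2.trans hcn) (hcmono (Nat.le_succ n))
      obtain ⟨hl, -⟩ := hclog n
      obtain ⟨-, hu⟩ := hclog (n + 1)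
      obtain ⟨X, hX⟩ : ∃ X, X = ℓ * ρ ^ n := ⟨_, rfl⟩
      have hXℓ : ℓ ≤ X := hX ▸ le_mul_of_one_le_right (by linarith) (one_le_pow₀ hρ1)
      rw [← hX] at hl
      rw [pow_succ, ← mul_assoc, ← hX] at hu
      obtain ⟨S, hS⟩ : ∃ S, S = ∑ q ∈ (Ioc (c n) (c (n + 1))).filter Nat.Prime,
        ((q : ℕ) : ℝ)⁻¹ := ⟨_, rfl⟩
      rw [← hS] at h1 ⊢
      have hS0 : 0 ≤ S := hS ▸ sum_nonneg fun q _ => by positivity
      have hS1 : S ≤ (Real.log (c (n + 1)) - Real.log (c n) + 12) / Real.log (c n) := by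
        rw [le_div_iff₀ (Real.log_pos (Nat.one_lt_cast.2 (by omega)))]
        linarith
      rcases le_or_gt S (ρ - 1) with h | h
      · exact h.trans (le_add_of_nonneg_right (div_nonneg (by norm_num) (by linarith)))
      · have h4 : (X - 1) * S ≤ X * (ρ - 1) + 13 :=
          (mul_le_mul_of_nonneg_right hl hS0).trans (h1.trans (by linarith))
        have h5 : (X - 1) * (S - (ρ - 1)) ≤ 13 + (ρ - 1) := by linarith
        have h6 : ρ ≤ 3 := by
          rw [hρ]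
          refine (Real.exp_le_exp.2 ?_).trans (by linarith [Real.exp_one_lt_d9] : Real.exp 1 ≤ 3)
          rw [div_le_one hK0]
          exact (le_max_left _ _).trans hK'
        rw [← sub_le_iff_le_add', le_div_iff₀ (by linarith)]
        have h7 := mul_le_mul_of_nonneg_right (show ℓ / 2 ≤ X - 1 by linarith)
          (sub_pos.2 h).le
        linarith
  refine le_trans (sum_le_sum_of_subset_of_nonneg
    (filter_subset_filter _ (Ioc_subset_Ioc_right hbc)) fun q _ _ => by positivity)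
    ((hstep K).trans ?_)
  have h9 : (K : ℝ) * (32 / ℓ) ≤ η / 2 := by
    rw [mul_div_assoc', div_le_iff₀ (by linarith)]
    have h := mul_le_mul_of_nonneg_left ha hη.le
    rw [mul_add, mul_div_cancel₀ _ hη.ne'] at h
    linarith
  linarith

variable {p : ℕ} [Fact p.Prime]

theorem chi_eq_one_of_smooth {y : ℕ} (hy : y < p)
    (hres : ∀ n : ℕ, n ≤ y → chi p (n : ZMod p) ≠ -1) {n : ℕ} (hn : 0 < n)
    (hs : ∀ q : ℕ, q.Prime → q ∣ n → q ≤ y) : chi p (n : ZMod p) = 1 := by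
  induction n using Nat.strong_induction_on with
  | _ n ih =>
    rcases eq_or_ne n 1 with rfl | h1
    · simp [chi]
    obtain ⟨q, hq, m, rfl⟩ := Nat.exists_prime_and_dvd h1
    have hm : 0 < m := Nat.pos_of_mul_pos_left hn
    have hqy := hs q hq (dvd_mul_right q m)
    have h2 := ih m (lt_mul_of_one_lt_left hm hq.one_lt) hm fun l hl hd =>
      hs l hl (hd.mul_left q)
    have h3 : chi p (q : ZMod p) = 1 := by
      rcases quadraticChar_dichotomy (natCast_ne_zero_of_lt (p := p) hq.one_le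
        (lt_of_le_of_lt hqy hy)) with h | h
      · simp [chi, h]
      · exact absurd (show chi p (q : ZMod p) = -1 by simp [chi, h]) (hres q hqy)
    rw [Nat.cast_mul, chi, map_mul, Int.cast_mul, ← chi, ← chi, h2, h3, one_mul]

theorem le_windowSum_of_residues {y N : ℕ} (hy : y < p)
    (hres : ∀ n : ℕ, n ≤ y → chi p (n : ZMod p) ≠ -1) :
    (N : ℝ) * (1 - 2 * ∑ q ∈ (Ioc y N).filter Nat.Prime, ((q : ℕ) : ℝ)⁻¹) ≤
      windowSum p 0 N := by
  classical
  have hsum : ∀ n ∈ Ioc 0 N,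
      1 - 2 * ((((Ioc y N).filter Nat.Prime).filter (· ∣ n)).card : ℝ) ≤ chi p (n : ZMod p) := by
    intro n hn
    rw [mem_Ioc] at hn
    rcases Nat.eq_zero_or_pos (((Ioc y N).filter Nat.Prime).filter (· ∣ n)).card with h | h
    · rw [h, Nat.cast_zero, mul_zero, sub_zero, chi_eq_one_of_smooth hy hres hn.1 fun q hq hd => ?_]
      by_contra hqy
      exact Finset.notMem_empty q (card_eq_zero.1 h ▸ mem_filter.2 ⟨mem_filter.2
        ⟨mem_Ioc.2 ⟨not_le.1 hqy, (Nat.le_of_dvd hn.1 hd).trans hn.2⟩, hq⟩, hd⟩)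
    · have h1 : (1 : ℝ) ≤ ((((Ioc y N).filter Nat.Prime).filter (· ∣ n)).card : ℕ) :=
        Nat.one_le_cast.2 h
      linarith [(abs_le.1 (abs_chi_le (n : ZMod p))).1]
  rw [windowSum, zero_add]
  refine le_trans ?_ (sum_le_sum hsum)
  rw [sum_sub_distrib, sum_const, Nat.card_Ioc, Nat.sub_zero, nsmul_one, mul_sub, mul_one,
    ← mul_sum]
  refine sub_le_sub_left ?_ _
  rw [← mul_assoc, mul_comm (N : ℝ) 2, mul_assoc]
  refine mul_le_mul_of_nonneg_left ?_ two_pos.le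
  simp only [card_filter]
  push_cast
  rw [sum_comm, mul_sum]
  refine sum_le_sum fun q _ => ?_
  rw [sum_boole, Nat.Ioc_filter_dvd_card_eq_div, ← div_eq_mul_inv]
  exact Nat.cast_div_le

theorem nonresidue_prime {n : ℕ} (hmin : ∀ m < n, chi p (m : ZMod p) ≠ -1)
    (hn : chi p (n : ZMod p) = -1) : n.Prime := by
  rcases Nat.eq_zero_or_pos n with rfl | h0
  · simp [chi] at hn
  rcases eq_or_ne n 1 with rfl | h1
  · norm_num [chi] at hn
  by_contra hp
  obtain ⟨a, b, ha, hb, rfl⟩ : ∃ a b, a < n ∧ b < n ∧ a * b = n := by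
    obtain ⟨a, ⟨b, rfl⟩, ha2, han⟩ := Nat.exists_dvd_of_not_prime2 (by omega) hp
    have hb0 : 0 < b := Nat.pos_of_mul_pos_left h0
    exact ⟨a, b, han, lt_mul_of_one_lt_left hb0 (by omega), rfl⟩
  have ha' := hmin a ha
  have hb' := hmin b hb
  rw [Nat.cast_mul, chi, map_mul, Int.cast_mul, ← chi, ← chi] at hn
  rcases eq_or_ne (a : ZMod p) 0 with h | h
  · simp [h, chi] at hn
  rcases eq_or_ne (b : ZMod p) 0 with h' | h'
  · simp [h', chi] at hn
  rcases quadraticChar_dichotomy h with e | e <;> rcases quadraticChar_dichotomy h' with e' | e' <;>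
    first | (norm_num [chi, e, e'] at hn; done) | simp [chi, e, e'] at ha' hb'

/-- **The least non-residue.** -/
theorem eventually_least_nonresidue {η : ℝ} (hη : 0 < η) (hη1 : η ≤ 1 / 4) :
    ∀ᶠ p : ℕ in atTop, ∀ [Fact p.Prime], ∃ n : ℕ,
      (n : ℝ) ≤ (p : ℝ) ^ (1 / (4 * Real.sqrt (Real.exp 1)) + η) ∧ n.Prime ∧
        chi p (n : ZMod p) = -1 := by
  obtain ⟨θ, hθ⟩ : ∃ θ, θ = 1 / (4 * Real.sqrt (Real.exp 1)) + η := ⟨_, rfl⟩
  obtain ⟨s, hs⟩ : ∃ s, s = Real.sqrt (Real.exp 1) := ⟨_, rfl⟩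
  have hse : s = Real.exp (1 / 2) := hs.trans (Real.exp_half 1).symm
  have hs1 : 1 < s := hse ▸ Real.one_lt_exp_iff.2 (by norm_num)
  rw [← hθ]
  rw [← hs] at hθ
  have hθ0 : 0 < θ := hθ ▸ by positivity
  -- `(1 / 4 + η) / θ < √e`
  obtain ⟨c, hc⟩ : ∃ c, c = (1 / 4 + 2 * η / 3) / (θ - η / 3 * (1 - 1 / s)) := ⟨_, rfl⟩
  have hden : 1 / (4 * s) + 2 * η / 3 ≤ θ - η / 3 * (1 - 1 / s) := by
    have : 0 ≤ 1 / s := by positivity
    have := mul_le_mul_of_nonneg_left (show 1 - 1 / s ≤ 1 by linarith) (show 0 ≤ η / 3 by linarith)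
    linarith
  have hden0 : 0 < θ - η / 3 * (1 - 1 / s) := lt_of_lt_of_le (by positivity) hden
  have hc1 : c < s := by
    rw [hc, div_lt_iff₀ hden0]
    have h1 : s * (1 / (4 * s)) = 1 / 4 := by field_simp
    have h2 := mul_le_mul_of_nonneg_left hden (by linarith : 0 ≤ s)
    have h3 := mul_lt_mul_of_pos_right hs1 (show 0 < 2 * η / 3 by linarith)
    linarith
  obtain ⟨t, ht0, htlt, htc⟩ : ∃ t : ℝ, 0 ≤ t ∧ t < 1 / 2 ∧ c ≤ Real.exp t := by
    refine ⟨max 0 (Real.log c), le_max_left _ _, max_lt (by norm_num) ?_, ?_⟩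
    · have hc0 : 0 < c := hc ▸ div_pos (by linarith) hden0
      rw [← Real.exp_lt_exp, Real.exp_log hc0, ← hse]
      exact hc1
    · have hc0 : 0 < c := hc ▸ div_pos (by linarith) hden0
      exact (le_of_eq (Real.exp_log hc0).symm).trans (Real.exp_le_exp.2 (le_max_right _ _))
  obtain ⟨L₀, hL₀⟩ := exists_sum_inv_prime_le ht0 (show 0 < (1 / 2 - t) / 2 by linarith)
  have hlogp : Tendsto (fun p : ℕ => Real.log p) atTop atTop :=
    Real.tendsto_log_atTop.comp tendsto_natCast_atTop_atTop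
  filter_upwards [eventually_abs_windowSum_le (show 0 < (1 / 2 - t) / 2 by linarith)
      (show 0 < η / 3 by linarith),
    hlogp.eventually_ge_atTop (|L₀| / θ + 2 / θ + 1),
    hlogp.eventually_ge_atTop (6 / (η * (1 - 1 / s))), hlogp.eventually_ge_atTop (3 / η),
    eventually_ge_atTop 2] with p hburgess hlog1 hlog2 hlog3 hp2
  intro _
  have hp1 : (1 : ℝ) ≤ p := Nat.one_le_cast.2 (by omega)
  have hp0 : (0 : ℝ) < p := by linarith
  obtain ⟨y, hy⟩ : ∃ y, y = ⌊(p : ℝ) ^ θ⌋₊ := ⟨_, rfl⟩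
  have hyp : y < p := by
    rw [← Nat.cast_lt (α := ℝ)]
    refine (hy ▸ Nat.floor_le (Real.rpow_nonneg hp0.le θ)).trans_lt ?_
    conv_rhs => rw [← Real.rpow_one (p : ℝ)]
    refine Real.rpow_lt_rpow_of_exponent_lt (Nat.one_lt_cast.2 (by omega)) ?_
    rw [hθ]
    have : 1 / (4 * s) < 1 / 4 := one_div_lt_one_div_of_lt (by norm_num) (by linarith)
    linarith
  by_cases hex : ∃ n : ℕ, n ≤ y ∧ chi p (n : ZMod p) = -1
  · refine ⟨Nat.find hex, ?_, ?_, (Nat.find_spec hex).2⟩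
    · exact (Nat.cast_le.2 (Nat.find_spec hex).1).trans
        (hy ▸ Nat.floor_le (Real.rpow_nonneg hp0.le θ))
    · exact nonresidue_prime (fun m hm h => Nat.find_min hex hm
        ⟨hm.le.trans (Nat.find_spec hex).1, h⟩) (Nat.find_spec hex).2
  exfalso
  push Not at hex
  obtain ⟨N, hN⟩ : ∃ N, N = ⌈(p : ℝ) ^ (1 / 4 + η / 3)⌉₊ := ⟨_, rfl⟩
  have hNle : (p : ℝ) ^ (1 / 4 + η / 3) ≤ N := hN ▸ Nat.le_ceil _
  have hb := hburgess 0 N hNle
  have hlow := le_windowSum_of_residues (N := N) hyp hex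
  obtain ⟨ℓ, hℓ⟩ : ∃ ℓ, ℓ = Real.log (p : ℝ) := ⟨_, rfl⟩
  rw [← hℓ] at hlog1 hlog2 hlog3
  have hsum : ∑ q ∈ (Ioc y N).filter Nat.Prime, ((q : ℕ) : ℝ)⁻¹ ≤ t + (1 / 2 - t) / 2 := by
    have hθℓ : |L₀| + 2 + θ ≤ θ * ℓ := by
      have h := mul_le_mul_of_nonneg_left hlog1 hθ0.le
      rw [mul_add, mul_add, mul_one, mul_div_cancel₀ _ hθ0.ne', mul_div_cancel₀ _ hθ0.ne'] at h
      exact h
    have hexp : (2 : ℝ) ≤ (p : ℝ) ^ θ := by
      rw [Real.rpow_def_of_pos hp0, ← hℓ, mul_comm]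
      linarith [Real.add_one_le_exp (θ * ℓ), abs_nonneg L₀]
    have hy1 : θ * ℓ - 1 ≤ Real.log y := by
      have h := Nat.lt_floor_add_one ((p : ℝ) ^ θ)
      rw [← hy] at h
      have hyr : (1 : ℝ) ≤ y := Nat.one_le_cast.2 (hy ▸ Nat.le_floor (by push_cast; linarith))
      have h2 := Real.log_le_log (Real.rpow_pos_of_pos hp0 θ)
        (show (p : ℝ) ^ θ ≤ 2 * y by linarith)
      rw [Real.log_rpow hp0, Real.log_mul two_ne_zero (by linarith), ← hℓ] at h2
      linarith [Real.log_two_lt_d9]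
    refine hL₀ y N (by linarith [le_abs_self L₀]) ?_
    have hN2 : Real.log N ≤ (1 / 4 + η / 3) * ℓ + 1 := by
      have h1 : (1 : ℝ) ≤ (p : ℝ) ^ (1 / 4 + η / 3) := Real.one_le_rpow hp1 (by linarith)
      have h2 := (Nat.ceil_lt_add_one (zero_le_one.trans h1)).le
      rw [← hN] at h2
      have h3 := Real.log_le_log (show (0 : ℝ) < N by linarith)
        (show (N : ℝ) ≤ 2 * (p : ℝ) ^ (1 / 4 + η / 3) by linarith)
      rw [Real.log_mul two_ne_zero (by linarith), Real.log_rpow hp0, ← hℓ] at h3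
      linarith [Real.log_two_lt_d9]
    have h4 : 1 ≤ η / 3 * ℓ := by
      rw [div_le_iff₀ hη] at hlog3
      linarith
    have hs' : 0 < 1 - 1 / s := by
      rw [sub_pos, div_lt_one (by linarith)]
      exact hs1
    have h5 : 1 ≤ η / 3 * (1 - 1 / s) * ℓ := by
      rw [div_le_iff₀ (mul_pos hη hs')] at hlog2
      linarith
    refine hN2.trans (le_trans ?_ (mul_le_mul_of_nonneg_right htc (Real.log_natCast_nonneg y)))
    refine le_trans ?_ (mul_le_mul_of_nonneg_left (show (θ - η / 3 * (1 - 1 / s)) * ℓ ≤ Real.log y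
      by linarith) (hc ▸ (div_pos (by linarith) hden0).le))
    rw [hc, ← mul_assoc, div_mul_cancel₀ _ hden0.ne']
    linarith
  have h1 := mul_le_mul_of_nonneg_left hsum (Nat.cast_nonneg (α := ℝ) N)
  have h2 := (le_abs_self _).trans hb
  have hN0 : (0 : ℝ) < N := lt_of_lt_of_le (Real.rpow_pos_of_pos hp0 _) hNle
  have h3 := mul_pos hN0 (show 0 < 1 / 2 - t by linarith)
  linarith

end FA.Burgess
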