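import Fermat.Agent.Burgess.Hoelder
import Mathlib.Analysis.SpecialFunctions.Pow.Asymptotics

/-!
# The theorem of Burgess

`|∑_{M < n ≤ M + N} (n / p)| ≤ ε N` for `N ≥ p ^ (1/4 + δ)` and `p` large.
-/

set_option autoImplicit false

noncomputable section

namespace FA.Burgess

open Finset Filter
open scoped Topology

theorem eventually_block {ε δ : ℝ} (hε : 0 < ε) (hε1 : ε ≤ 1) (hδ : 0 < δ) (hδ1 : δ ≤ 1 / 8) :
    ∀ᶠ p : ℕ in atTop, ∀ [Fact p.Prime] (M N : ℕ), (p : ℝ) ^ (1 / 4 + δ) ≤ N →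
      (N : ℝ) ≤ 4 * (p : ℝ) ^ (1 / 4 + δ) → |windowSum p M N| ≤ ε * N := by
  obtain ⟨r, hr⟩ : ∃ r : ℕ, r = ⌈1 / δ⌉₊ := ⟨_, rfl⟩
  have hr' : 1 / δ ≤ (r : ℝ) := hr ▸ Nat.le_ceil _
  have hr8 : (8 : ℝ) ≤ r := le_trans (by rw [le_div_iff₀ hδ]; linarith) hr'
  have hr1 : 1 ≤ r := by
    rw [← Nat.cast_le (α := ℝ), Nat.cast_one]
    linarith
  have hrδ : 1 / (2 * (r : ℝ)) ≤ δ / 2 := by
    rw [div_le_div_iff₀ (by linarith) two_pos]
    rw [div_le_iff₀ hδ] at hr'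
    linarith
  obtain ⟨K, hK⟩ : ∃ K : ℝ, K = (r : ℝ) ^ (2 * r) + 25 * (2 * r + 1) := ⟨_, rfl⟩
  have hK0 : 0 < K := by rw [hK]; positivity
  obtain ⟨e, he⟩ : ∃ e : ℝ, e = 2 * δ - 1 / (2 * r) := ⟨_, rfl⟩
  have he0 : 0 < e := by linarith
  have hlim : ∀ᶠ p : ℕ in atTop,
      64 * K / ε * ((1 + Real.log p) ^ 2 * (p : ℝ) ^ (-e)) ≤ (ε / 2) ^ (2 * r) := by
    have h1 : Tendsto (fun x : ℝ => (1 + Real.log x) ^ 2 * x ^ (-e)) atTop (𝓝 0) := by
      have h0 : ∀ n : ℕ, Tendsto (fun x : ℝ => Real.log x ^ (n : ℝ) / x ^ e) atTop (𝓝 0) :=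
        fun n => (isLittleO_log_rpow_rpow_atTop _ he0).tendsto_div_nhds_zero
      have h : Tendsto (fun x : ℝ => Real.log x ^ ((0 : ℕ) : ℝ) / x ^ e +
          2 * (Real.log x ^ ((1 : ℕ) : ℝ) / x ^ e) + Real.log x ^ ((2 : ℕ) : ℝ) / x ^ e) atTop
          (𝓝 0) := by simpa using ((h0 0).add ((h0 1).const_mul 2)).add (h0 2)
      refine h.congr' ?_
      filter_upwards [eventually_gt_atTop 0] with x hx
      rw [Real.rpow_natCast, Real.rpow_natCast, Real.rpow_natCast, Real.rpow_neg hx.le]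
      ring
    have h2 := (h1.comp tendsto_natCast_atTop_atTop).const_mul (64 * K / ε)
    rw [mul_zero] at h2
    exact h2.eventually (eventually_le_nhds (by positivity))
  have hA1 : ∀ᶠ p : ℕ in atTop, 16 / ε ≤ (p : ℝ) ^ (1 / 4 + δ / 2) :=
    ((tendsto_rpow_atTop (by linarith)).comp tendsto_natCast_atTop_atTop).eventually_ge_atTop _
  have hp4 : ∀ᶠ p : ℕ in atTop, (5 : ℝ) ≤ (p : ℝ) ^ ((1 : ℝ) / 4) :=
    ((tendsto_rpow_atTop (by norm_num)).comp tendsto_natCast_atTop_atTop).eventually_ge_atTop _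
  filter_upwards [hlim, hA1, hp4, eventually_ge_atTop 5] with p hlimp hA1p hp4p hp5
  intro _ M N hN1 hN2
  have hp0 : (0 : ℝ) < p := Nat.cast_pos.2 (by omega)
  have hp1 : (1 : ℝ) ≤ p := Nat.one_le_cast.2 (by omega)
  obtain ⟨u, hu⟩ : ∃ u : ℝ, u = (p : ℝ) ^ (1 / (2 * (r : ℝ))) := ⟨_, rfl⟩
  have hu1 : 1 ≤ u := hu ▸ Real.one_le_rpow hp1 (by positivity)
  obtain ⟨B, hB⟩ : ∃ B, B = ⌈u⌉₊ := ⟨_, rfl⟩
  have hBu : u ≤ B := hB ▸ Nat.le_ceil u
  have hB2 : (B : ℝ) ≤ 2 * u := by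
    have := (Nat.ceil_lt_add_one (show 0 ≤ u by linarith)).le
    rw [← hB] at this
    linarith
  have hB0 : (0 : ℝ) < B := by linarith
  have hBp : B < p := by
    rw [← Nat.cast_lt (α := ℝ)]
    have h1 : u ≤ (p : ℝ) ^ ((1 : ℝ) / 4) := hu ▸ Real.rpow_le_rpow_of_exponent_le hp1 (by linarith)
    have h2 : (p : ℝ) ^ ((1 : ℝ) / 4) * (p : ℝ) ^ ((1 : ℝ) / 4) ≤ p := by
      rw [← Real.rpow_add hp0]
      conv_rhs => rw [← Real.rpow_one (p : ℝ)]
      exact Real.rpow_le_rpow_of_exponent_le hp1 (by norm_num)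
    have := mul_le_mul_of_nonneg_right hp4p (Real.rpow_nonneg hp0.le ((1 : ℝ) / 4))
    linarith
  obtain ⟨A, hA⟩ : ∃ A, A = ⌊ε * N / (8 * B)⌋₊ := ⟨_, rfl⟩
  have hNu : (p : ℝ) ^ (1 / 4 + δ / 2) * u ≤ N := by
    rw [hu, ← Real.rpow_add hp0]
    exact (Real.rpow_le_rpow_of_exponent_le hp1 (by linarith)).trans hN1
  have hone : 1 ≤ ε * N / (8 * B) := by
    rw [one_le_div (by linarith)]
    have h := mul_le_mul_of_nonneg_right hA1p (show 0 ≤ u by linarith)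
    have h2 := mul_le_mul_of_nonneg_left (h.trans hNu) hε.le
    rw [← mul_assoc, mul_div_cancel₀ _ hε.ne'] at h2
    linarith
  have hA0 : 1 ≤ A := hA ▸ Nat.le_floor (by simpa using hone)
  have hAle : (A : ℝ) ≤ ε * N / (8 * B) := hA ▸ Nat.floor_le (zero_le_one.trans hone)
  have hAge : ε * N / (16 * B) ≤ A := by
    have h1 := Nat.lt_floor_add_one (ε * N / (8 * B))
    rw [← hA] at h1
    have h2 : (1 : ℝ) ≤ A := Nat.one_le_cast.2 hA0
    rw [show ε * N / (16 * B) = ε * N / (8 * B) / 2 by ring]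
    linarith
  have hAr : (1 : ℝ) ≤ A := Nat.one_le_cast.2 hA0
  have hN0 : (0 : ℝ) < N := (Real.rpow_pos_of_pos hp0 _).trans_le hN1
  have hB1 : (1 : ℝ) ≤ B := hu1.trans hBu
  have hAN8 : (A : ℝ) ≤ N / 8 := by
    refine hAle.trans ?_
    rw [div_le_div_iff₀ (by linarith) (by norm_num)]
    have := mul_le_mul_of_nonneg_right (hε1.trans hB1) hN0.le
    linarith
  have hAN : 2 * A * N < p := by
    rw [← Nat.cast_lt (α := ℝ)]
    push_cast
    have h1 : (N : ℝ) * N ≤ 16 * ((p : ℝ) ^ (1 / 4 + δ) * (p : ℝ) ^ (1 / 4 + δ)) := by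
      have := mul_le_mul hN2 hN2 hN0.le (by positivity)
      linarith
    have h2 : (p : ℝ) ^ (1 / 4 + δ) * (p : ℝ) ^ (1 / 4 + δ) * (p : ℝ) ^ ((1 : ℝ) / 4) ≤ p := by
      rw [← Real.rpow_add hp0, ← Real.rpow_add hp0]
      conv_rhs => rw [← Real.rpow_one (p : ℝ)]
      exact Real.rpow_le_rpow_of_exponent_le hp1 (by linarith)
    have h3 := mul_le_mul_of_nonneg_left hp4p (show (0 : ℝ) ≤
      (p : ℝ) ^ (1 / 4 + δ) * (p : ℝ) ^ (1 / 4 + δ) by positivity)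
    have h4 := mul_le_mul_of_nonneg_right hAN8 hN0.le
    linarith
  have hAp : A < p := by
    have hN' : 0 < N := Nat.cast_pos.1 hN0
    have := Nat.le_mul_of_pos_right A (show 0 < 2 * N by omega)
    rw [← mul_assoc, mul_comm A 2] at this
    omega
  have hwin := window_le_mult (p := p) (A := A) (B := B) (M := M) (N := N) hAp
  have hh := holder_pow (univ : Finset (ZMod p)) (mult p A M N) (fun y => |shortSum p B y|)
    (fun y _ => Nat.cast_nonneg _) (fun y _ => abs_nonneg _) hr1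
  obtain ⟨T, hT⟩ : ∃ T, T = ∑ y : ZMod p, mult p A M N y * |shortSum p B y| := ⟨_, rfl⟩
  rw [← hT] at hwin hh
  have hT0 : 0 ≤ T := hT ▸ sum_nonneg fun y _ => mul_nonneg (Nat.cast_nonneg _) (abs_nonneg _)
  rw [sum_mult] at hh
  obtain ⟨L, hL⟩ : ∃ L, L = 1 + Real.log p := ⟨_, rfl⟩
  have hL1 : 1 ≤ L := by linarith [Real.log_natCast_nonneg p]
  have hν : ∑ y : ZMod p, mult p A M N y ^ 2 ≤ 2 * (A * N * L ^ 2) := by
    refine (sum_mult_sq_le hAN).trans ?_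
    have h1 : (1 + Real.log A) ^ 2 ≤ L ^ 2 := by
      refine pow_le_pow_left₀ (by linarith [Real.log_natCast_nonneg A]) ?_ 2
      have := Real.log_le_log (show (0 : ℝ) < A by linarith) (Nat.cast_le.2 hAp.le)
      linarith
    have h2 := mul_le_mul_of_nonneg_left h1 (show (0 : ℝ) ≤ A * N by positivity)
    have h3 : (A : ℝ) ^ 2 ≤ A * N := by
      rw [sq]
      exact mul_le_mul_of_nonneg_left (by linarith) (by linarith)
    have h4 : (A : ℝ) * N ≤ A * N * L ^ 2 :=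
      le_mul_of_one_le_right (by positivity) (one_le_pow₀ hL1)
    linarith
  have hsqrt : Real.sqrt p ≤ (B : ℝ) ^ r := by
    refine le_trans (le_of_eq ?_) (pow_le_pow_left₀ (by linarith) hBu r)
    rw [hu, ← Real.rpow_natCast, ← Real.rpow_mul hp0.le, Real.sqrt_eq_rpow]
    congr 1
    field_simp
  have hmom : ∑ y : ZMod p, |shortSum p B y| ^ (2 * r) ≤ K * (B : ℝ) ^ (2 * r) * Real.sqrt p := by
    simp only [(even_two_mul r).pow_abs]
    refine (sum_shortSum_pow_le hr1 hBp).trans ?_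
    have h1 : (B : ℝ) ^ r * p ≤ (B : ℝ) ^ (2 * r) * Real.sqrt p := by
      have := mul_le_mul_of_nonneg_left (mul_le_mul_of_nonneg_right hsqrt (Real.sqrt_nonneg p))
        (pow_nonneg hB0.le r)
      rw [Real.mul_self_sqrt hp0.le, ← mul_assoc, ← pow_add, ← two_mul] at this
      exact this
    have h2 := mul_le_mul_of_nonneg_left h1 (show (0 : ℝ) ≤ (r : ℝ) ^ (2 * r) by positivity)
    rw [hK]
    linarith
  have hAB0 : (0 : ℝ) < A * B := by positivity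
  have hT2 : (T / (A * B)) ^ (2 * r) ≤ (ε / 2 * N) ^ (2 * r) := by
    rw [div_pow, mul_pow (ε / 2), div_le_iff₀ (pow_pos hAB0 _)]
    refine hh.trans ((mul_le_mul (mul_le_mul_of_nonneg_left hν (by positivity)) hmom
      (sum_nonneg fun y _ => pow_nonneg (abs_nonneg _) _) (by positivity)).trans ?_)
    have hkey : 2 * L ^ 2 * K * Real.sqrt p ≤ (ε / 2) ^ (2 * r) * (A * N) := by
      have h1 : ε * (p : ℝ) ^ (1 / 2 + e) / 32 ≤ (A : ℝ) * N := by
        refine le_trans ?_ (mul_le_mul_of_nonneg_right hAge hN0.le)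
        rw [div_mul_eq_mul_div, div_le_div_iff₀ (by norm_num) (by linarith)]
        have h2 : (p : ℝ) ^ (1 / 2 + e) * u ≤ (N : ℝ) * N := by
          refine le_trans (le_of_eq ?_) (mul_le_mul hN1 hN1 (Real.rpow_nonneg hp0.le _) hN0.le)
          rw [hu, ← Real.rpow_add hp0, ← Real.rpow_add hp0, he]
          ring_nf
        have h3 := mul_le_mul_of_nonneg_left hB2 (show (0 : ℝ) ≤ ε * (p : ℝ) ^ (1 / 2 + e) by
          positivity)
        have h4 := mul_le_mul_of_nonneg_left h2 hε.le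
        linarith
      refine le_trans ?_ (mul_le_mul_of_nonneg_left h1 (by positivity))
      rw [← hL] at hlimp
      refine le_trans (le_of_eq ?_) (mul_le_mul_of_nonneg_right hlimp (by positivity))
      rw [Real.sqrt_eq_rpow, Real.rpow_add hp0, Real.rpow_neg hp0.le]
      have : (p : ℝ) ^ e ≠ 0 := (Real.rpow_pos_of_pos hp0 e).ne'
      field_simp
      ring
    obtain ⟨s, hs⟩ : ∃ s, 2 * r = s + 2 := ⟨2 * r - 2, by omega⟩
    rw [hs] at hkey ⊢
    rw [Nat.add_sub_cancel]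
    have h5 := mul_le_mul_of_nonneg_left hkey (show (0 : ℝ) ≤
      ((A : ℝ) * N) ^ (s + 1) * (B : ℝ) ^ (s + 2) by positivity)
    refine le_trans (le_of_eq ?_) (h5.trans (le_of_eq ?_))
    · ring
    · ring
  have hT3 := le_of_pow_le_pow_left₀ (by omega) (by positivity) hT2
  rw [div_le_iff₀ hAB0] at hT3
  have h8 : (A : ℝ) * B ≤ ε * N / 8 := by
    refine le_trans (mul_le_mul_of_nonneg_right hAle hB0.le) (le_of_eq ?_)
    field_simp
  have h9 : 2 * ((A : ℝ) * B) ^ 2 ≤ ε / 4 * N * (A * B) := by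
    rw [sq, ← mul_assoc]
    exact mul_le_mul_of_nonneg_right (by linarith) hAB0.le
  refine le_of_mul_le_mul_left (hwin.trans ?_) hAB0
  have : 0 ≤ ε / 4 * N * (A * B) := by positivity
  linarith

/-- **The theorem of Burgess.** -/
theorem eventually_abs_windowSum_le {ε δ : ℝ} (hε : 0 < ε) (hδ : 0 < δ) :
    ∀ᶠ p : ℕ in atTop, ∀ [Fact p.Prime] (M N : ℕ), (p : ℝ) ^ (1 / 4 + δ) ≤ N →
      |windowSum p M N| ≤ ε * N := by
  filter_upwards [eventually_block (lt_min hε one_pos) (min_le_right ε 1)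
    (lt_min hδ (show (0 : ℝ) < 1 / 8 by norm_num)) (min_le_right δ (1 / 8)),
    eventually_ge_atTop 1] with p hp hp1
  intro _ M N hN
  have hp1' : (1 : ℝ) ≤ p := Nat.one_le_cast.2 hp1
  obtain ⟨N₀, hN₀⟩ : ∃ N₀, N₀ = ⌈(p : ℝ) ^ (1 / 4 + min δ (1 / 8))⌉₊ := ⟨_, rfl⟩
  have hx1 : 1 ≤ (p : ℝ) ^ (1 / 4 + min δ (1 / 8)) :=
    Real.one_le_rpow hp1' (by linarith [lt_min hδ (show (0 : ℝ) < 1 / 8 by norm_num)])
  have hle : (p : ℝ) ^ (1 / 4 + min δ (1 / 8)) ≤ N₀ := hN₀ ▸ Nat.le_ceil _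
  have hge : (N₀ : ℝ) ≤ 2 * (p : ℝ) ^ (1 / 4 + min δ (1 / 8)) := by
    have := (Nat.ceil_lt_add_one (zero_le_one.trans hx1)).le
    rw [← hN₀] at this
    linarith
  have hN0 : 1 ≤ N₀ := by
    rw [← Nat.cast_le (α := ℝ), Nat.cast_one]
    linarith
  have key : ∀ N : ℕ, N₀ ≤ N → ∀ M : ℕ, |windowSum p M N| ≤ min ε 1 * N := by
    intro N
    induction N using Nat.strong_induction_on with
    | _ N ih =>
      intro hNN M
      have hNN' : (N₀ : ℝ) ≤ N := Nat.cast_le.2 hNN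
      rcases lt_or_ge N (2 * N₀) with h | h
      · refine hp M N (hle.trans hNN') ?_
        have : (N : ℝ) ≤ ((2 * N₀ : ℕ) : ℝ) := Nat.cast_le.2 h.le
        push_cast at this
        linarith
      · obtain ⟨K, rfl⟩ : ∃ K, N = N₀ + K := ⟨N - N₀, by omega⟩
        rw [windowSum_add, Nat.cast_add, mul_add]
        refine (abs_add_le _ _).trans (add_le_add (hp M N₀ hle (by linarith)) ?_)
        exact ih K (by omega) (by omega) (M + N₀)
  refine (key N (hN₀ ▸ Nat.ceil_le.2 (le_trans ?_ hN)) M).trans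
    (mul_le_mul_of_nonneg_right (min_le_left _ _) (Nat.cast_nonneg _))
  exact Real.rpow_le_rpow_of_exponent_le hp1' (by linarith [min_le_left δ (1 / 8)])

end FA.Burgess
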