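import Fermat.Agent.Burgess.Stepanov
import Mathlib.Data.List.GetD

/-!
# The moments of short character sums

`∑_x |∑_{b ≤ B} ((x + b) / p)| ^ (2 r) ≤ r ^ (2 r) B ^ r p + C r B ^ (2 r) √p`.
-/

set_option autoImplicit false

noncomputable section

namespace FA.Burgess

open Polynomial Finset

variable {p : ℕ} [Fact p.Prime]

theorem chi_prod {ι : Type*} (s : Finset ι) (x : ι → ZMod p) :
    chi p (∏ i ∈ s, x i) = ∏ i ∈ s, chi p (x i) := by
  simp only [chi, map_prod, Int.cast_prod]

/-- `∏ (X + t i)`. -/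
def shiftPoly (p : ℕ) {k : ℕ} (t : Fin k → ℕ) : (ZMod p)[X] := ∏ i, (X + C (t i : ZMod p))

theorem natDegree_shiftPoly {k : ℕ} (t : Fin k → ℕ) : (shiftPoly p t).natDegree = k := by
  rw [shiftPoly, natDegree_prod _ _ fun i _ => X_add_C_ne_zero _]
  simp only [natDegree_X_add_C, sum_const, card_univ, Fintype.card_fin, smul_eq_mul, mul_one]

theorem image_card_le_of_constMulSq {B r : ℕ} (hB : B < p) {t : Fin (2 * r) → ℕ}
    (ht : ∀ i, t i ∈ Icc 1 B) (h : ConstMulSq (shiftPoly p t)) : (univ.image t).card ≤ r := by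
  classical
  obtain ⟨c, u, hu⟩ := h
  have hne : shiftPoly p t ≠ 0 := prod_ne_zero_iff.2 fun i _ => X_add_C_ne_zero _
  have hc : c ≠ 0 := fun h0 => hne (by rw [hu, h0, C_0, zero_mul])
  obtain ⟨v, hv⟩ : ∃ v : ℕ → ZMod p, v = fun b : ℕ => -(b : ZMod p) := ⟨_, rfl⟩
  have hroots : (shiftPoly p t).roots = 2 • u.roots := by
    rw [hu, roots_C_mul _ hc, roots_pow]
  have hroots2 : (shiftPoly p t).roots = (univ.val.map t).map v := by
    rw [shiftPoly, roots_prod _ _ (by rwa [← shiftPoly]), Multiset.bind]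
    simp only [roots_X_add_C, Multiset.map_map]
    rw [show (Multiset.map (fun i : Fin (2 * r) => ({-(t i : ZMod p)} : Multiset (ZMod p)))
      univ.val).join = Multiset.map (fun i => -(t i : ZMod p)) univ.val from
        Multiset.bind_singleton (univ.val) fun i : Fin (2 * r) => -(t i : ZMod p)]
    rw [hv]
    rfl
  have hinj : Set.InjOn v (univ.image t : Finset ℕ) := by
    intro a ha b hb hab
    simp only [coe_image, Set.mem_image, coe_univ, Set.mem_univ, true_and] at ha hb
    obtain ⟨i, rfl⟩ := ha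
    obtain ⟨j, rfl⟩ := hb
    rw [hv, neg_inj, ZMod.natCast_eq_natCast_iff', Nat.mod_eq_of_lt, Nat.mod_eq_of_lt] at hab
    · exact hab
    · exact (mem_Icc.1 (ht j)).2.trans_lt hB
    · exact (mem_Icc.1 (ht i)).2.trans_lt hB
  have h1 : (univ.image t).card ≤ u.roots.toFinset.card := by
    rw [← card_image_of_injOn hinj]
    refine card_le_card fun y hy => ?_
    obtain ⟨b, hb, rfl⟩ := mem_image.1 hy
    obtain ⟨i, -, rfl⟩ := mem_image.1 hb
    rw [Multiset.mem_toFinset]
    have : v (t i) ∈ (shiftPoly p t).roots := by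
      rw [hroots2]
      exact Multiset.mem_map_of_mem _ (Multiset.mem_map_of_mem _ (mem_univ i))
    rw [hroots] at this
    exact Multiset.mem_of_mem_nsmul this
  refine h1.trans ((Multiset.toFinset_card_le _).trans ?_)
  have h2 := congrArg Multiset.card hroots
  rw [hroots2, Multiset.card_map, Multiset.card_map, Multiset.card_nsmul] at h2
  simp only [card_val, card_univ, Fintype.card_fin] at h2
  omega

theorem card_small_image_le (B r : ℕ) (hr : 1 ≤ r) :
    ((Fintype.piFinset fun _ : Fin (2 * r) => Icc 1 B).filter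
      fun t => (univ.image t).card ≤ r).card ≤ r ^ (2 * r) * B ^ r := by
  classical
  have hcard : ((Fintype.piFinset fun _ : Fin (2 * r) => (univ : Finset (Fin r))) ×ˢ
      Fintype.piFinset fun _ : Fin r => Icc 1 B).card = r ^ (2 * r) * B ^ r := by
    simp [card_product]
  rw [← hcard]
  refine (card_le_card fun t ht => mem_image.2 ?_).trans
    (card_image_le (f := fun x : (Fin (2 * r) → Fin r) × (Fin r → ℕ) => fun i => x.2 (x.1 i)))
  rw [mem_filter, Fintype.mem_piFinset] at ht
  obtain ⟨s, hs⟩ : ∃ s, s = (univ.image t).toList := ⟨_, rfl⟩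
  have hlen : s.length ≤ r := by rw [hs, length_toList]; exact ht.2
  have hmem : ∀ i, t i ∈ s := fun i => by
    rw [hs, mem_toList]
    exact mem_image_of_mem _ (mem_univ i)
  have hd : t ⟨0, by omega⟩ ∈ Icc 1 B := ht.1 _
  refine ⟨(fun i => ⟨s.idxOf (t i), (List.idxOf_lt_length_of_mem (hmem i)).trans_le hlen⟩,
    fun j => s.getD j (t ⟨0, by omega⟩)), mem_product.2 ⟨?_, ?_⟩, ?_⟩
  · exact Fintype.mem_piFinset.2 fun i => mem_univ _
  · rw [Fintype.mem_piFinset]
    intro j
    simp only
    by_cases hj : (j : ℕ) < s.length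
    · rw [List.getD_eq_getElem _ _ hj]
      have h := List.getElem_mem hj
      generalize s[(j : ℕ)] = b at h ⊢
      rw [hs, mem_toList, mem_image] at h
      obtain ⟨i, -, rfl⟩ := h
      exact ht.1 i
    · rw [List.getD_eq_default _ _ (not_lt.1 hj)]
      exact hd
  · funext i
    simp only
    rw [List.getD_eq_getElem _ _ (List.idxOf_lt_length_of_mem (hmem i)), List.getElem_idxOf]

/-- `∑_{b ≤ B} ((x + b) / p)`. -/
def shortSum (p : ℕ) [Fact p.Prime] (B : ℕ) (x : ZMod p) : ℝ :=
  ∑ b ∈ Icc 1 B, chi p (x + (b : ZMod p))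

/-- **The moment.** -/
theorem sum_shortSum_pow_le {B r : ℕ} (hr : 1 ≤ r) (hB : B < p) :
    ∑ x : ZMod p, shortSum p B x ^ (2 * r) ≤
      (r : ℝ) ^ (2 * r) * (B : ℝ) ^ r * p +
        25 * (2 * r + 1) * (B : ℝ) ^ (2 * r) * Real.sqrt p := by
  classical
  have e : ∀ x : ZMod p, shortSum p B x ^ (2 * r) =
      ∑ t ∈ Fintype.piFinset (fun _ : Fin (2 * r) => Icc 1 B), chi p ((shiftPoly p t).eval x) := by
    intro x
    rw [shortSum, sum_pow']
    refine sum_congr rfl fun t _ => ?_
    rw [shiftPoly, eval_prod, chi_prod]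
    simp
  simp only [e]
  rw [sum_comm, ← sum_filter_add_sum_filter_not _ fun t : Fin (2 * r) → ℕ =>
    (univ.image t).card ≤ r]
  refine add_le_add ?_ ?_
  · refine (sum_le_card_nsmul _ _ (p : ℝ) fun t _ => ?_).trans ?_
    · refine (le_abs_self _).trans ((abs_sum_le_sum_abs _ _).trans
        ((sum_le_sum fun x _ => abs_chi_le _).trans (le_of_eq ?_)))
      simp
    · rw [nsmul_eq_mul]
      refine mul_le_mul_of_nonneg_right ?_ (Nat.cast_nonneg _)
      have := (Nat.cast_le (α := ℝ)).2 (card_small_image_le B r hr)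
      push_cast at this
      exact this
  · refine (sum_le_card_nsmul _ _ (25 * (2 * r + 1) * Real.sqrt p) fun t ht => ?_).trans ?_
    · rw [mem_filter, Fintype.mem_piFinset] at ht
      refine (le_abs_self _).trans ((abs_sum_chi_le fun h => ht.2
        (image_card_le_of_constMulSq hB ht.1 h)).trans (le_of_eq ?_))
      rw [natDegree_shiftPoly]
      push_cast
      ring
    · rw [nsmul_eq_mul]
      refine le_trans (mul_le_mul_of_nonneg_right (Nat.cast_le.2 (card_filter_le _ _))
        (by positivity)) (le_of_eq ?_)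
      simp
      ring

end FA.Burgess
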