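import Fermat.Agent.Burgess.Independence
import Mathlib.LinearAlgebra.Dimension.Constructions
import Mathlib.NumberTheory.LegendreSymbol.QuadraticChar.Basic
import Mathlib.Analysis.SpecialFunctions.Sqrt

/-!
# Stepanov's bound for hyperelliptic character sums

`|∑_x (f x / p)| ≤ C (deg f) √p` if `f` is not a constant times a square.
-/

set_option autoImplicit false

noncomputable section

namespace FA.Burgess

open Polynomial Finset

variable {p : ℕ} [Fact p.Prime]

/-- The solutions of `f x ^ (p / 2) = a`. -/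
def powClass (f : (ZMod p)[X]) (a : ZMod p) : Finset (ZMod p) :=
  univ.filter fun x => (f.eval x) ^ (p / 2) = a

theorem exists_auxiliary {f : (ZMod p)[X]} {A M J : ℕ} {a : ZMod p} (hp : Odd p)
    (hA : 2 * A + f.natDegree < p) (hf0 : f.eval 0 ≠ 0) (hns : ¬ ConstMulSq f)
    (hcount : M * (A + M * f.natDegree + J + 1) < 2 * J * (A + 1)) :
    ∃ H : (ZMod p)[X], H ≠ 0 ∧
      H.natDegree ≤ (M + p / 2) * f.natDegree + A + p * J ∧
      ∀ x ∈ powClass f a, ∀ l < M, (derivative^[l] H).IsRoot x := by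
  classical
  obtain ⟨g, hg⟩ : ∃ g, g = p / 2 := ⟨_, rfl⟩
  have hpg : p = 2 * g + 1 := by
    obtain ⟨t, rfl⟩ := hp
    omega
  have hfne : f ≠ 0 := fun h => hf0 (by simp [h])
  obtain ⟨n, hn⟩ : ∃ n : Fin 2 → ℕ, n = ![M, M + g] := ⟨_, rfl⟩
  let ι := Fin 2 × Fin J × Fin (A + 1)
  obtain ⟨E, hE⟩ : ∃ E : ι → (ZMod p)[X],
      E = fun i => f ^ n i.1 * X ^ (i.2.2 : ℕ) * X ^ (p * (i.2.1 : ℕ)) := ⟨_, rfl⟩
  obtain ⟨Q, hQ⟩ : ∃ Q : ℕ → ι → (ZMod p)[X],
      Q = fun l i => C (![1, a] i.1) * iterPoly f (n i.1) l (X ^ (i.2.2 : ℕ)) *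
        X ^ (i.2.1 : ℕ) := ⟨_, rfl⟩
  obtain ⟨d, hd⟩ : ∃ d, d = A + M * f.natDegree + J + 1 := ⟨_, rfl⟩
  let Φ : (ι → ZMod p) →ₗ[ZMod p] (Fin M × Fin d → ZMod p) :=
    { toFun := fun v x => ∑ i, v i * (Q x.1 i).coeff x.2
      map_add' := fun v w => by
        funext x
        simp [add_mul, sum_add_distrib]
      map_smul' := fun c v => by
        funext x
        simp [mul_sum, mul_assoc] }
  have hker : LinearMap.ker Φ ≠ ⊥ := by
    refine LinearMap.ker_ne_bot_of_finrank_lt ?_
    rw [Module.finrank_fintype_fun_eq_card, Module.finrank_fintype_fun_eq_card]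
    simp only [ι, Fintype.card_prod, Fintype.card_fin]
    rw [hd]
    linarith
  obtain ⟨v, hv, hv0⟩ := (Submodule.ne_bot_iff _).1 hker
  rw [LinearMap.mem_ker] at hv
  obtain ⟨H, hH⟩ : ∃ H : (ZMod p)[X], H = ∑ i, C (v i) * E i := ⟨_, rfl⟩
  have hQdeg : ∀ l < M, ∀ i, (Q l i).natDegree < d := by
    intro l hl i
    rw [hQ]
    refine lt_of_le_of_lt natDegree_mul_le ?_
    have h1 := (natDegree_C_mul_le (![1, a] i.1)
      (iterPoly f (n i.1) l (X ^ (i.2.2 : ℕ)))).trans (natDegree_iterPoly f _ _ l)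
    rw [natDegree_X_pow] at h1 ⊢
    have h2 := i.2.1.2
    have h3 := i.2.2.2
    have h4 : l * f.natDegree ≤ M * f.natDegree := Nat.mul_le_mul_right _ hl.le
    omega
  have hzero : ∀ l < M, ∑ i, C (v i) * Q l i = 0 := by
    intro l hl
    ext k
    rw [finsetSum_coeff, coeff_zero]
    simp only [coeff_C_mul]
    by_cases hk : k < d
    · exact congrFun hv (⟨l, hl⟩, ⟨k, hk⟩)
    · exact sum_eq_zero fun i _ => by
        rw [coeff_eq_zero_of_natDegree_lt ((hQdeg l hl i).trans_le (not_lt.1 hk)), mul_zero]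
  refine ⟨H, fun hH0 => hv0 ?_, ?_, fun x hx l hl => ?_⟩
  · have key := coeffs_eq_zero hpg hA hf0 hns J
      (fun j => if hj : j < J then ∑ k : Fin (A + 1), C (v (0, ⟨j, hj⟩, k)) * X ^ (k : ℕ) else 0)
      (fun j => if hj : j < J then ∑ k : Fin (A + 1), C (v (1, ⟨j, hj⟩, k)) * X ^ (k : ℕ) else 0)
      ?_ ?_ ?_
    · funext i
      obtain ⟨i₀, ⟨j, hj⟩, k⟩ := i
      obtain ⟨h1, h2⟩ := key j hj
      simp only [dif_pos hj] at h1 h2
      have hc : ∀ w : Fin (A + 1) → ZMod p,
          ∑ k : Fin (A + 1), C (w k) * X ^ (k : ℕ) = 0 → ∀ k, w k = 0 := by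
        intro w hw k
        have := congrArg (fun q : (ZMod p)[X] => q.coeff (k : ℕ)) hw
        simpa [finsetSum_coeff, coeff_C_mul, coeff_X_pow, Fin.val_inj] using this
      fin_cases i₀
      · exact hc _ h1 k
      · exact hc _ h2 k
    · intro j
      split_ifs
      · refine natDegree_sum_le_of_forall_le _ _ fun k _ => (natDegree_C_mul_X_pow_le _ _).trans ?_
        exact Nat.lt_succ_iff.1 k.2
      · simp
    · intro j
      split_ifs
      · refine natDegree_sum_le_of_forall_le _ _ fun k _ => (natDegree_C_mul_X_pow_le _ _).trans ?_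
        exact Nat.lt_succ_iff.1 k.2
      · simp
    · refine ((mul_eq_zero (a := f ^ M)).1 ?_).resolve_left (pow_ne_zero _ hfne)
      rw [← hH0, hH, hE, Fintype.sum_prod_type, Fin.sum_univ_two, mul_sum, sum_range]
      simp only [Fintype.sum_prod_type, hn]
      rw [← sum_add_distrib]
      refine sum_congr rfl fun j _ => ?_
      simp only [dif_pos j.2, Fin.eta, Matrix.cons_val_zero, Matrix.cons_val_one, sum_mul, add_mul,
        mul_add, mul_sum, pow_add]
      refine congrArg₂ (· + ·) (sum_congr rfl fun k _ => ?_) (sum_congr rfl fun k _ => ?_) <;> ring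
  · rw [hH]
    refine natDegree_sum_le_of_forall_le _ _ fun i _ => (natDegree_C_mul_le _ _).trans ?_
    rw [hE]
    refine natDegree_mul_le.trans ?_
    rw [natDegree_X_pow]
    refine le_trans (Nat.add_le_add_right natDegree_mul_le _) ?_
    rw [natDegree_X_pow]
    have h1 : n i.1 ≤ M + g := by
      obtain ⟨i₀, i₁⟩ := i
      rw [hn]
      fin_cases i₀ <;> simp
    have h2 := natDegree_pow_le (p := f) (n := n i.1)
    have h3 : n i.1 * f.natDegree ≤ (M + g) * f.natDegree := Nat.mul_le_mul_right _ h1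
    have h4 := i.2.2.2
    have h5 : p * (i.2.1 : ℕ) ≤ p * J := Nat.mul_le_mul_left _ i.2.1.2.le
    rw [hg] at h3
    omega
  · rw [powClass, mem_filter, ← hg] at hx
    rw [IsRoot, hH, iterate_derivative_sum, eval_finsetSum]
    have e : ∀ i, eval x (derivative^[l] (C (v i) * E i)) =
        eval x f ^ (M - l) * eval x (C (v i) * Q l i) := by
      intro i
      have hn' : l ≤ n i.1 := by
        obtain ⟨i₀, i₁⟩ := i
        rw [hn]
        fin_cases i₀ <;> simp <;> omega
      rw [iterate_derivative_C_mul, hE, iterate_derivative_pow_mul f _ _ _ l hn', hQ]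
      simp only [eval_mul, eval_C, eval_pow, eval_X, pow_mul, ZMod.pow_card]
      have hpow : eval x f ^ (n i.1 - l) = eval x f ^ (M - l) * ![1, a] i.1 := by
        obtain ⟨i₀, i₁⟩ := i
        rw [hn]
        fin_cases i₀
        · simp
        · simp only [Fin.mk_one, Matrix.cons_val_one, Matrix.cons_val_zero]
          rw [show M + g - l = M - l + g by omega, pow_add, hx.2]
      rw [hpow]
      ring
    simp only [e, ← mul_sum, ← eval_finsetSum, hzero l hl, eval_zero, mul_zero]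

theorem powClass_card_le {f : (ZMod p)[X]} (hm : 1 ≤ f.natDegree) (hf0 : f.eval 0 ≠ 0)
    (hns : ¬ ConstMulSq f) (hbig : 100 * (f.natDegree + 1) ^ 2 ≤ p) (a : ZMod p) :
    ((powClass f a).card : ℝ) ≤ (p : ℝ) / 2 + 12 * (f.natDegree + 1) * Real.sqrt p := by
  obtain ⟨m, hm'⟩ : ∃ m, m = f.natDegree := ⟨_, rfl⟩
  rw [← hm'] at hm hbig ⊢
  have hpp := Fact.out (p := p.Prime)
  have hp100 : 100 * (m + 1) ≤ p :=
    le_trans (Nat.mul_le_mul_left _ (Nat.le_self_pow two_ne_zero _)) hbig
  have hodd : Odd p := hpp.odd_of_ne_two (by omega)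
  obtain ⟨M, hM⟩ : ∃ M, M = Nat.sqrt p := ⟨_, rfl⟩
  obtain ⟨A, hA⟩ : ∃ A, A = (p - m - 1) / 2 := ⟨_, rfl⟩
  obtain ⟨c, hc⟩ : ∃ c, c = 4 * (m + 1) := ⟨_, rfl⟩
  obtain ⟨J, hJ⟩ : ∃ J, J = M / 2 + c := ⟨_, rfl⟩
  have hMsq : M * M ≤ p := hM ▸ Nat.sqrt_le p
  have hM10 : 10 * (m + 1) ≤ M := by
    rw [hM, Nat.le_sqrt]
    refine le_trans (le_of_eq ?_) hbig
    ring
  have hMp : M < p := lt_of_lt_of_le (by nlinarith : M < M * M) hMsq
  have hcount : M * (A + M * m + J + 1) < 2 * J * (A + 1) := by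
    have hJ2 : M + 2 * c ≤ 2 * J + 1 := by omega
    have hA3 : p ≤ 3 * A := by omega
    have h1 : (M + 2 * c) * (A + 1) ≤ (2 * J + 1) * (A + 1) := Nat.mul_le_mul_right _ hJ2
    have h2 : M * M * m ≤ p * m := Nat.mul_le_mul_right _ hMsq
    have h3 : M * (2 * J) ≤ M * (M + 2 * c) := Nat.mul_le_mul_left _ (by omega)
    have h4 : 10 * (m + 1) * M ≤ M * M := Nat.mul_le_mul_right _ hM10
    have h5 : p * (8 * m + 7) ≤ 3 * A * (8 * m + 7) := Nat.mul_le_mul_right _ hA3
    rw [hc] at h1 h3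
    nlinarith
  obtain ⟨H, hH0, hHdeg, hroot⟩ := exists_auxiliary (a := a) hodd (A := A) (M := M) (J := J)
    (by rw [← hm']; omega) hf0 hns (by rw [← hm']; exact hcount)
  rw [← hm'] at hHdeg
  have hcard : (powClass f a).card * M ≤ H.natDegree := by
    refine le_trans ?_ (Polynomial.card_roots' H)
    rw [← smul_eq_mul, ← sum_const]
    refine le_trans (sum_le_sum (g := fun x => H.roots.count x) fun x hx => ?_)
      ((sum_le_sum_of_subset (subset_univ _)).trans (le_of_eq ?_))
    · rw [count_roots]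
      have : M - 1 < H.rootMultiplicity x := by
        refine lt_rootMultiplicity_of_isRoot_iterate_derivative_of_mem_nonZeroDivisors' hH0
          (fun l hl => hroot x hx l (by omega)) fun l hl hl0 => ?_
        refine mem_nonZeroDivisors_of_ne_zero fun h => hl0 ?_
        rw [ZMod.natCast_eq_zero_iff] at h
        exact Nat.eq_zero_of_dvd_of_lt h (by omega)
      omega
    · exact H.roots.sum_count_eq_card fun x _ => mem_univ x
  have key : (powClass f a).card * M ≤ p * (M / 2) + p * (5 * m + 6) := by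
    refine (hcard.trans hHdeg).trans ?_
    have h1 : M * m ≤ p * m := Nat.mul_le_mul_right _ hMp.le
    have h2 : p / 2 * m ≤ p * m := Nat.mul_le_mul_right _ (Nat.div_le_self p 2)
    have h3 : A ≤ p := by omega
    rw [hJ, hc]
    nlinarith
  have hMr : (0 : ℝ) < M := Nat.cast_pos.2 (by omega)
  have hsqrt : Real.sqrt p ≤ 2 * M := by
    rw [Real.sqrt_le_left (by positivity)]
    have h1 : p < (M + 1) * (M + 1) := hM ▸ Nat.lt_succ_sqrt p
    have h2 : (M + 1) * (M + 1) ≤ 2 * M * (2 * M) := Nat.mul_le_mul (by omega) (by omega)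
    have h3 : ((p : ℕ) : ℝ) ≤ ((2 * M * (2 * M) : ℕ) : ℝ) := Nat.cast_le.2 (h1.le.trans h2)
    push_cast at h3
    linarith
  refine le_of_mul_le_mul_right ?_ hMr
  have h1 : ((powClass f a).card : ℝ) * M ≤ (p : ℝ) * ((M / 2 : ℕ) : ℝ) + p * (5 * m + 6) := by
    exact_mod_cast key
  refine h1.trans ?_
  rw [add_mul]
  refine add_le_add ?_ ?_
  · refine (mul_le_mul_of_nonneg_left Nat.cast_div_le (Nat.cast_nonneg p)).trans (le_of_eq ?_)
    push_cast
    ring
  · have h2 := mul_le_mul_of_nonneg_left hsqrt (Real.sqrt_nonneg p)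
    rw [Real.mul_self_sqrt (Nat.cast_nonneg p)] at h2
    have h3 := mul_le_mul_of_nonneg_left h2 (show (0 : ℝ) ≤ 5 * m + 6 by positivity)
    have h4 : 0 ≤ Real.sqrt p * M * (2 * m) := by positivity
    linarith

/-- The quadratic character, with real values. -/
def chi (p : ℕ) [Fact p.Prime] (x : ZMod p) : ℝ := ((quadraticChar (ZMod p) x : ℤ) : ℝ)

theorem abs_chi_le (x : ZMod p) : |chi p x| ≤ 1 := by
  rw [chi]
  rcases eq_or_ne x 0 with rfl | hx
  · simp
  · rcases quadraticChar_dichotomy hx with h | h <;> simp [h]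

theorem abs_sum_chi_le_of_large {f : (ZMod p)[X]} (hm : 1 ≤ f.natDegree) (hf0 : f.eval 0 ≠ 0)
    (hns : ¬ ConstMulSq f) (hbig : 100 * (f.natDegree + 1) ^ 2 ≤ p) :
    |∑ x : ZMod p, chi p (f.eval x)| ≤ 25 * (f.natDegree + 1) * Real.sqrt p := by
  classical
  have hpp := Fact.out (p := p.Prime)
  have hp3 : 3 ≤ p := by
    have : 4 ≤ (f.natDegree + 1) ^ 2 := Nat.pow_le_pow_left (n := 2) (by omega) 2
    omega
  have hchar : ringChar (ZMod p) ≠ 2 := by
    rw [ZMod.ringChar_zmod_n]
    omega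
  obtain ⟨Z, hZ⟩ : ∃ Z, Z = univ.filter fun x : ZMod p => f.eval x = 0 := ⟨_, rfl⟩
  have hZcard : Z.card ≤ f.natDegree := by
    refine le_trans ?_ (Polynomial.card_roots' f)
    refine le_trans (card_le_card fun x hx => ?_) (Multiset.toFinset_card_le _)
    rw [hZ, mem_filter] at hx
    rw [Multiset.mem_toFinset, mem_roots (fun h => hf0 (by simp [h]))]
    exact hx.2
  have hne : (1 : ZMod p) ≠ -1 := (Ring.neg_one_ne_one_of_char_ne_two hchar).symm
  have hg0 : p / 2 ≠ 0 := by omega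
  have e : ∀ x : ZMod p, chi p (f.eval x) =
      (if x ∈ powClass f 1 then (1 : ℝ) else 0) - if x ∈ powClass f (-1) then (1 : ℝ) else 0 := by
    intro x
    rw [chi, powClass, powClass]
    simp only [mem_filter, mem_univ, true_and]
    rcases eq_or_ne (f.eval x) 0 with h | h
    · simp [h, zero_pow hg0]
    · have h2 := quadraticChar_eq_pow_of_char_ne_two hchar h
      rw [ZMod.card] at h2
      rcases ZMod.pow_div_two_eq_neg_one_or_one p h with h3 | h3
      · rw [h2, h3]
        simp [hne]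
      · rw [h2, h3]
        simp [hne.symm]
  rw [sum_congr rfl fun x _ => e x, sum_sub_distrib]
  simp only [sum_ite_mem, univ_inter, sum_const, nsmul_one]
  have hcover : p ≤ (powClass f 1).card + (powClass f (-1)).card + Z.card := by
    calc p = (univ : Finset (ZMod p)).card := by rw [card_univ, ZMod.card]
      _ ≤ (powClass f 1 ∪ powClass f (-1) ∪ Z).card := card_le_card fun x _ => by
          simp only [mem_union, powClass, hZ, mem_filter, mem_univ, true_and]
          rcases eq_or_ne (f.eval x) 0 with h | h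
          · exact Or.inr h
          · exact Or.inl (ZMod.pow_div_two_eq_neg_one_or_one p h)
      _ ≤ _ := (card_union_le _ _).trans (Nat.add_le_add_right (card_union_le _ _) _)
  have h1 := powClass_card_le hm hf0 hns hbig 1
  have h2 := powClass_card_le hm hf0 hns hbig (-1)
  have h3 : (p : ℝ) ≤ (powClass f 1).card + (powClass f (-1)).card + Z.card := by
    exact_mod_cast hcover
  have h4 : (Z.card : ℝ) ≤ f.natDegree := Nat.cast_le.2 hZcard
  have h5 : (f.natDegree : ℝ) ≤ f.natDegree * Real.sqrt p :=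
    le_mul_of_one_le_right (Nat.cast_nonneg _) (Real.one_le_sqrt.2 (Nat.one_le_cast.2 (by omega)))
  have h6 := Real.sqrt_nonneg (p : ℝ)
  rw [abs_le]
  constructor <;> linarith

/-- **Weil's bound for hyperelliptic sums, by Stepanov's method.** -/
theorem abs_sum_chi_le {f : (ZMod p)[X]} (hns : ¬ ConstMulSq f) :
    |∑ x : ZMod p, chi p (f.eval x)| ≤ 25 * (f.natDegree + 1) * Real.sqrt p := by
  classical
  have hm : 1 ≤ f.natDegree := by
    by_contra h
    refine hns ⟨f.coeff 0, 1, ?_⟩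
    rw [one_pow, mul_one]
    exact eq_C_of_natDegree_eq_zero (by omega)
  by_cases hbig : 100 * (f.natDegree + 1) ^ 2 ≤ p
  · have hfne : f ≠ 0 := fun h => hns ⟨0, 0, by simp [h]⟩
    obtain ⟨x₀, hx₀⟩ : ∃ x₀, f.eval x₀ ≠ 0 := by
      by_contra! h
      have h1 := Polynomial.card_le_degree_of_subset_roots (p := f) (Z := univ) fun x _ => by
        rw [mem_roots hfne]
        exact h x
      rw [card_univ, ZMod.card] at h1
      have : f.natDegree + 1 ≤ 100 * (f.natDegree + 1) ^ 2 :=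
        (Nat.le_self_pow two_ne_zero _).trans (Nat.le_mul_of_pos_left _ (by norm_num))
      omega
    have hsum : ∑ x : ZMod p, chi p (f.eval x) =
        ∑ x : ZMod p, chi p ((f.comp (X + C x₀)).eval x) := by
      rw [← Equiv.sum_comp (Equiv.addRight x₀) fun x => chi p (f.eval x)]
      exact sum_congr rfl fun x _ => by simp [eval_comp]
    have hdeg : (f.comp (X + C x₀)).natDegree = f.natDegree := by
      rw [natDegree_comp, natDegree_X_add_C, mul_one]
    rw [hsum, ← hdeg]
    refine abs_sum_chi_le_of_large (by rwa [hdeg]) (by simpa [eval_comp]) ?_ (by rwa [hdeg])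
    rintro ⟨c, u, h⟩
    refine hns ⟨c, u.comp (X - C x₀), ?_⟩
    have := congrArg (fun q : (ZMod p)[X] => q.comp (X - C x₀)) h
    simpa [comp_assoc] using this
  · refine (abs_sum_le_sum_abs _ _).trans ((sum_le_sum fun x _ => abs_chi_le _).trans ?_)
    rw [sum_const, card_univ, ZMod.card, nsmul_one]
    have h1 : Real.sqrt p ≤ 10 * (f.natDegree + 1) := by
      rw [Real.sqrt_le_left (by positivity)]
      have h : (p : ℝ) ≤ ((100 * (f.natDegree + 1) ^ 2 : ℕ) : ℝ) :=
        Nat.cast_le.2 (not_le.1 hbig).le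
      push_cast at h
      linarith
    refine le_trans (le_of_eq (Real.mul_self_sqrt (Nat.cast_nonneg p)).symm)
      (mul_le_mul_of_nonneg_right (h1.trans ?_) (Real.sqrt_nonneg _))
    linarith [Nat.cast_nonneg (α := ℝ) f.natDegree]

end FA.Burgess
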